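import Mathlib.NumberTheory.ArithmeticFunction.Misc
import Mathlib.NumberTheory.ArithmeticFunction.Moebius
import Mathlib.NumberTheory.EulerProduct.Basic
import Mathlib.Analysis.Normed.Group.Tannery
import Mathlib.Analysis.SpecialFunctions.Pow.Asymptotics
import Mathlib.Analysis.PSeries
import Mathlib.Algebra.BigOperators.Field
import Mathlib.Algebra.Order.Floor.Semifield

/-!
# Mean values by convolution

If the sums of `b` are `~ c x ^ α (log x) ^ β` and `∑ |h n| / n ^ α` converges, those of `h * b`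
are `~ c (∑ h n / n ^ α) x ^ α (log x) ^ β`; a multiplicative `h` which is small at the low prime
powers has convergent series, the value being an Euler product.
-/

set_option autoImplicit false
set_option linter.style.haveILetI false

noncomputable section

open ArithmeticFunction Filter Topology Finset
open scoped Classical ArithmeticFunction.Moebius ArithmeticFunction.zeta

namespace FA.AbelianQuartic

/-- Move a function to the squares. -/
def sqLift (F : ArithmeticFunction ℝ) : ArithmeticFunction ℝ :=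
  ⟨fun n => if IsSquare n then F n.sqrt else 0, by simp⟩

theorem sqLift_apply (F : ArithmeticFunction ℝ) (n : ℕ) :
    sqLift F n = if IsSquare n then F n.sqrt else 0 := rfl

theorem sqLift_sq (F : ArithmeticFunction ℝ) (m : ℕ) : sqLift F (m * m) = F m := by
  rw [sqLift_apply, if_pos ⟨m, rfl⟩, Nat.sqrt_eq]

theorem sqLift_eq_zero (F : ArithmeticFunction ℝ) {n : ℕ} (h : ¬IsSquare n) : sqLift F n = 0 :=
  if_neg h

theorem sqLift_one : sqLift 1 = 1 := by
  ext n
  by_cases h : IsSquare n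
  · obtain ⟨m, rfl⟩ := h
    rw [sqLift_sq, one_apply, one_apply]
    rcases eq_or_ne m 1 with rfl | hm
    · simp
    · rw [if_neg hm, if_neg fun e => hm (Nat.eq_one_of_mul_eq_one_right e)]
  · rw [sqLift_eq_zero _ h, one_apply, if_neg fun e : n = 1 => h (e ▸ IsSquare.one)]

theorem sqLift_mul (F G : ArithmeticFunction ℝ) : sqLift (F * G) = sqLift F * sqLift G := by
  ext n
  by_cases h : IsSquare n
  · obtain ⟨m, rfl⟩ := h
    rw [sqLift_sq, mul_apply, mul_apply]
    refine sum_of_injOn (fun x => (x.1 * x.1, x.2 * x.2)) (fun x _ y _ h => ?_) (fun x hx => ?_)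
      (fun y hy hne => ?_) fun x _ => by rw [sqLift_sq, sqLift_sq]
    · simp only [Prod.mk.injEq] at h
      exact Prod.ext (Nat.mul_self_inj.mp h.1) (Nat.mul_self_inj.mp h.2)
    · obtain ⟨hx, hm⟩ := Nat.mem_divisorsAntidiagonal.mp hx
      refine Nat.mem_divisorsAntidiagonal.mpr ⟨?_, mul_ne_zero hm hm⟩
      rw [← hx]; ring
    · by_cases h1 : IsSquare y.1
      · by_cases h2 : IsSquare y.2
        · obtain ⟨a, ha⟩ := h1
          obtain ⟨b, hb⟩ := h2
          obtain ⟨hy1, hy2⟩ := Nat.mem_divisorsAntidiagonal.mp hy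
          rw [ha, hb] at hy1
          refine absurd ⟨(a, b), Finset.mem_coe.mpr (Nat.mem_divisorsAntidiagonal.mpr
            ⟨?_, left_ne_zero_of_mul hy2⟩), Prod.ext ha.symm hb.symm⟩ hne
          exact Nat.mul_self_inj.mp (by rw [← hy1]; ring)
        · rw [sqLift_eq_zero _ h2, mul_zero]
      · rw [sqLift_eq_zero _ h1, zero_mul]
  · rw [sqLift_eq_zero _ h, mul_apply]
    refine (Finset.sum_eq_zero fun x hx => ?_).symm
    by_cases h1 : IsSquare x.1
    · have h2 : ¬IsSquare x.2 := fun h2 => h ((Nat.mem_divisorsAntidiagonal.mp hx).1 ▸ h1.mul h2)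
      rw [sqLift_eq_zero _ h2, mul_zero]
    · rw [sqLift_eq_zero _ h1, zero_mul]

theorem sqLift_isMultiplicative {F : ArithmeticFunction ℝ} (hF : F.IsMultiplicative) :
    (sqLift F).IsMultiplicative := by
  refine IsMultiplicative.iff_ne_zero.mpr ⟨?_, fun {m n} _ _ hc => ?_⟩
  · rw [show (1 : ℕ) = 1 * 1 from rfl, sqLift_sq, hF.map_one]
  · by_cases hm : IsSquare m
    · obtain ⟨a, rfl⟩ := hm
      by_cases hn : IsSquare n
      · obtain ⟨b, rfl⟩ := hn
        rw [show a * a * (b * b) = (a * b) * (a * b) by ring, sqLift_sq, sqLift_sq, sqLift_sq,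
          hF.map_mul_of_coprime (Nat.Coprime.coprime_dvd_left (dvd_mul_right a a)
            (Nat.Coprime.coprime_dvd_right (dvd_mul_right b b) hc))]
      · rw [sqLift_eq_zero _ hn, mul_zero, sqLift_eq_zero]
        exact fun h => hn (isSquare_right_of_coprime hc h)
    · rw [sqLift_eq_zero _ hm, zero_mul, sqLift_eq_zero]
      exact fun h => hm (isSquare_right_of_coprime hc.symm (mul_comm m n ▸ h))
where
  isSquare_right_of_coprime {m n : ℕ} (hc : m.Coprime n) (h : IsSquare (m * n)) : IsSquare n := by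
    obtain ⟨r, hr⟩ := h
    obtain ⟨d, hd⟩ := exists_eq_pow_of_mul_eq_pow (k := 2) (a := n) (b := m) (c := r)
      (by rw [Nat.isUnit_iff]; exact hc.symm) (by rw [mul_comm, hr, pow_two])
    exact ⟨d, by rw [hd, pow_two]⟩

/-- `1 - [p ^ r]` at every prime. -/
def IsStep (g : ArithmeticFunction ℝ) (r : ℕ) : Prop :=
  ∀ p : ℕ, p.Prime → ∀ e : ℕ, g (p ^ e) = if e = 0 then 1 else if e = r then -1 else 0

theorem isStep_moebius : IsStep (μ : ArithmeticFunction ℝ) 1 := fun p hp e => by
  rcases eq_or_ne e 0 with rfl | he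
  · simp
  · rw [if_neg he, intCoe_apply, moebius_apply_prime_pow hp he]
    split_ifs <;> simp

theorem isStep_sqLift_moebius : IsStep (sqLift (μ : ArithmeticFunction ℝ)) 2 := fun p hp e => by
  rcases Nat.even_or_odd' e with ⟨i, rfl | rfl⟩
  · rw [show p ^ (2 * i) = p ^ i * p ^ i by rw [← pow_add, two_mul], sqLift_sq, isStep_moebius p hp]
    split_ifs <;> first | rfl | omega
  · rw [sqLift_eq_zero, if_neg (by omega), if_neg (by omega)]
    rintro ⟨x, hx⟩
    obtain ⟨j, -, hj⟩ :=
      (Nat.dvd_prime_pow hp).mp (hx.symm ▸ dvd_mul_right x x : x ∣ p ^ (2 * i + 1))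
    rw [hj, ← pow_add] at hx
    have := Nat.pow_right_injective hp.two_le hx
    omega

theorem step_mul {f g : ArithmeticFunction ℝ} {r : ℕ} (hr : r ≠ 0) (hg : IsStep g r) {p : ℕ}
    (hp : p.Prime) (e : ℕ) :
    (f * g) (p ^ e) = f (p ^ e) - if r ≤ e then f (p ^ (e - r)) else 0 := by
  rw [ArithmeticFunction.mul_apply, Nat.sum_divisorsAntidiagonal' fun a b => f a * g b,
    Nat.sum_divisors_prime_pow hp, Finset.sum_range_succ']
  have hg1 : g 1 = 1 := by simpa using hg p hp 0
  simp only [hg p hp, Nat.add_one_ne_zero, if_false, pow_zero, Nat.div_one, hg1, mul_one]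
  rw [add_comm, sub_eq_add_neg]
  congr 1
  by_cases hre : r ≤ e
  · rw [if_pos hre, Finset.sum_eq_single (r - 1)]
    · rw [if_pos (by omega), mul_neg, mul_one, show r - 1 + 1 = r by omega, Nat.pow_div hre hp.pos]
    · intro b _ hb
      rw [if_neg (by omega), mul_zero]
    · intro h
      rw [Finset.mem_range] at h
      omega
  · rw [if_neg hre, neg_zero]
    refine Finset.sum_eq_zero fun b hb => ?_
    rw [Finset.mem_range] at hb
    rw [if_neg (by omega), mul_zero]

/-- Vanishing at the high powers and boundedness at all powers of the primes. -/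
def Tame (f : ArithmeticFunction ℝ) (E : ℕ) (M : ℝ) : Prop :=
  ∀ p : ℕ, p.Prime → ∀ e : ℕ, (E ≤ e → f (p ^ e) = 0) ∧ |f (p ^ e)| ≤ M

theorem Tame.step {f g : ArithmeticFunction ℝ} {E : ℕ} {M : ℝ} (hf : Tame f E M) {r : ℕ}
    (hr : r ≠ 0) (hg : IsStep g r) : Tame (f * g) (E + r) (2 * M) := by
  intro p hp e
  rw [step_mul hr hg hp]
  refine ⟨fun he => ?_, (abs_sub _ _).trans ?_⟩
  · rw [(hf p hp e).1 (by omega), if_pos (by omega), (hf p hp (e - r)).1 (by omega), sub_zero]
  · have h1 := (hf p hp e).2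
    have h0 : 0 ≤ M := (abs_nonneg _).trans h1
    have h2 : |if r ≤ e then f (p ^ (e - r)) else 0| ≤ M := by
      split_ifs
      · exact (hf p hp _).2
      · rwa [abs_zero]
    linarith

/-- The local series. -/
def locSum (f : ArithmeticFunction ℝ) (p : ℕ) (x : ℝ) : ℝ := ∑' e : ℕ, f (p ^ e) * x ^ e

theorem locSum_step {f g : ArithmeticFunction ℝ} {E : ℕ} {M : ℝ} (hf : Tame f E M) {r : ℕ}
    (hr : r ≠ 0) (hg : IsStep g r) {p : ℕ} (hp : p.Prime) (x : ℝ) :
    locSum (f * g) p x = (1 - x ^ r) * locSum f p x := by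
  have hs : Summable fun e => f (p ^ e) * x ^ e :=
    summable_of_ne_finset_zero (s := Finset.range E) fun e he => by
      rw [(hf p hp e).1 (by simpa using he), zero_mul]
  have hshift : HasSum (fun e => (if r ≤ e then f (p ^ (e - r)) else 0) * x ^ e)
      (x ^ r * locSum f p x) := by
    refine (hasSum_nat_add_iff' r).mp ?_
    rw [Finset.sum_eq_zero fun i hi => by
      rw [if_neg (by rw [Finset.mem_range] at hi; omega), zero_mul], sub_zero]
    refine (hs.hasSum.mul_left (x ^ r)).congr_fun fun e => ?_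
    rw [if_pos (Nat.le_add_left r e), Nat.add_sub_cancel, pow_add]
    ring
  have h := hs.hasSum.sub hshift
  rw [sub_mul, one_mul]
  refine (h.congr_fun fun e => ?_).tsum_eq
  rw [step_mul hr hg hp, sub_mul]

/-- **Convergence.** -/
theorem summable_of_local_above {h : ArithmeticFunction ℝ} (hm : h.IsMultiplicative) {α : ℝ}
    (hα : 0 ≤ α) {r : ℕ} (hr : 1 < (r : ℝ) * α) {E : ℕ} {M : ℝ} (hh : Tame h E M) {P : ℕ}
    (hP : 1 ≤ P) (hlow : ∀ p : ℕ, p.Prime → P < p → ∀ e : ℕ, 1 ≤ e → e < r → h (p ^ e) = 0) :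
    Summable fun n : ℕ => |h n| / (n : ℝ) ^ α := by
  have hP1 : (1 : ℝ) ≤ P := Nat.one_le_cast.mpr hP
  have hP0 : (0 : ℝ) < P := one_pos.trans_le hP1
  set w := fun n : ℕ => |h n| / (n : ℝ) ^ α
  have hw0 : ∀ n, 0 ≤ w n := fun n =>
    div_nonneg (abs_nonneg _) (Real.rpow_nonneg (Nat.cast_nonneg n) _)
  have hw1 : w 1 = 1 := by simp [w, hm.map_one]
  have hwm : ∀ {m n : ℕ}, m.Coprime n → w (m * n) = w m * w n := fun {m n} hc => by
    simp only [w, hm.map_mul_of_coprime hc, abs_mul, Nat.cast_mul,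
      Real.mul_rpow (Nat.cast_nonneg m) (Nat.cast_nonneg n), mul_div_mul_comm]
  set γ := (r : ℝ) * α
  set K := (E : ℝ) * M * (P : ℝ) ^ γ
  have hK : 0 ≤ K := mul_nonneg (mul_nonneg (Nat.cast_nonneg E)
    ((abs_nonneg _).trans (hh 2 Nat.prime_two 0).2)) (Real.rpow_nonneg hP0.le _)
  have hS : Summable fun n : ℕ => K * ((n : ℝ) ^ γ)⁻¹ :=
    (Real.summable_nat_rpow_inv.mpr hr).mul_left K
  have hloc : ∀ p : ℕ, p.Prime → ∑' e : ℕ, w (p ^ e) ≤ Real.exp (K * ((p : ℝ) ^ γ)⁻¹) := by
    intro p hp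
    refine le_trans ?_ (Real.add_one_le_exp _)
    rw [tsum_eq_sum (s := Finset.range (E + 1)) fun e he => by
      rw [Finset.mem_range, not_lt] at he
      simp [w, (hh p hp e).1 (by omega)], Finset.sum_range_succ', pow_zero, hw1, add_comm,
      add_comm _ (1 : ℝ)]
    gcongr
    have hterm : ∀ e ∈ Finset.range E, w (p ^ (e + 1)) ≤ M * (P : ℝ) ^ γ * ((p : ℝ) ^ γ)⁻¹ := by
      intro e _
      have hp0 : (0 : ℝ) < p := Nat.cast_pos.mpr hp.pos
      have hp1 : (1 : ℝ) ≤ p := Nat.one_le_cast.mpr hp.pos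
      have hM := (hh p hp (e + 1)).2
      simp only [w, Nat.cast_pow]
      rw [← Real.rpow_natCast_mul hp0.le, mul_assoc, div_eq_mul_inv]
      refine (em (p ≤ P ∨ r ≤ e + 1)).elim (fun hc => ?_) (fun hc => ?_)
      · refine mul_le_mul hM ?_ (inv_nonneg.mpr (Real.rpow_nonneg hp0.le _))
          ((abs_nonneg _).trans hM)
        rcases hc with hc | hc
        · refine (inv_le_one_of_one_le₀ (Real.one_le_rpow hp1 (by positivity))).trans ?_
          rw [← div_eq_mul_inv, one_le_div (Real.rpow_pos_of_pos hp0 _)]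
          exact Real.rpow_le_rpow hp0.le (Nat.cast_le.mpr hc) (by positivity)
        · refine (inv_anti₀ (Real.rpow_pos_of_pos hp0 _) (Real.rpow_le_rpow_of_exponent_le hp1
            (mul_le_mul_of_nonneg_right (Nat.cast_le.mpr hc) hα))).trans ?_
          exact le_mul_of_one_le_left (inv_nonneg.mpr (Real.rpow_nonneg hp0.le _))
            (Real.one_le_rpow hP1 (by positivity))
      · push Not at hc
        rw [hlow p hp hc.1 (e + 1) (Nat.le_add_left 1 e) hc.2, abs_zero, zero_mul]
        exact mul_nonneg ((abs_nonneg _).trans hM)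
          (mul_nonneg (Real.rpow_nonneg hP0.le _) (inv_nonneg.mpr (Real.rpow_nonneg hp0.le _)))
    refine (Finset.sum_le_sum hterm).trans_eq ?_
    rw [Finset.sum_const, Finset.card_range, nsmul_eq_mul]
    ring
  refine summable_of_sum_range_le (c := Real.exp (∑' n : ℕ, K * ((n : ℝ) ^ γ)⁻¹)) hw0 fun N => ?_
  obtain ⟨-, hH⟩ := EulerProduct.summable_and_hasSum_factoredNumbers_prod_filter_prime_tsum
    (f := w) hw1 hwm
    (fun {p} hp => summable_of_ne_finset_zero (s := Finset.range E) fun e he => by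
      rw [Finset.mem_range, not_lt] at he
      simp [w, (hh p hp e).1 he]) (Finset.range N)
  calc ∑ n ∈ Finset.range N, w n
      = ∑ n ∈ (Finset.range N).subtype (· ∈ Nat.factoredNumbers (Finset.range N)), w n.1 := by
        rw [Finset.sum_subtype_eq_sum_filter (f := w)]
        refine (Finset.sum_filter_of_ne fun n hn h0 =>
          Nat.mem_factoredNumbers.mpr ⟨fun e => h0 ?_, fun p hp => ?_⟩).symm
        · simp [w, e]
        · exact Finset.mem_range.mpr
            ((Nat.le_of_mem_primeFactorsList hp).trans_lt (Finset.mem_range.mp hn))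
    _ ≤ ∏ p ∈ Finset.range N with p.Prime, ∑' e : ℕ, w (p ^ e) :=
        sum_le_hasSum _ (fun _ _ => hw0 _) hH
    _ ≤ ∏ p ∈ Finset.range N with p.Prime, Real.exp (K * ((p : ℝ) ^ γ)⁻¹) :=
        Finset.prod_le_prod (fun p _ => tsum_nonneg fun _ => hw0 _)
          fun p hp => hloc p (Finset.mem_filter.mp hp).2
    _ ≤ _ := by
        rw [← Real.exp_sum]
        exact Real.exp_le_exp.mpr (hS.sum_le_tsum _ fun _ _ =>
          mul_nonneg hK (inv_nonneg.mpr (Real.rpow_nonneg (Nat.cast_nonneg _) _)))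

/-- **Convergence**, with one exceptional prime. -/
theorem summable_of_local_except {h : ArithmeticFunction ℝ} (hm : h.IsMultiplicative) {α : ℝ}
    (hα : 0 ≤ α) {r : ℕ} (hr : 1 < (r : ℝ) * α) {E : ℕ} {M : ℝ} (hh : Tame h E M) {P : ℕ}
    (hP : 1 ≤ P) (hlow : ∀ p : ℕ, p.Prime → p ≠ P → ∀ e : ℕ, 1 ≤ e → e < r → h (p ^ e) = 0) :
    Summable fun n : ℕ => |h n| / (n : ℝ) ^ α :=
  summable_of_local_above hm hα hr hh hP fun p hp hne => hlow p hp hne.ne'

/-- **Convergence**, the exceptional prime being two. -/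
theorem summable_of_local {h : ArithmeticFunction ℝ} (hm : h.IsMultiplicative) {α : ℝ}
    (hα : 0 ≤ α) {r : ℕ} (hr : 1 < (r : ℝ) * α) {E : ℕ} {M : ℝ} (hh : Tame h E M)
    (hlow : ∀ p : ℕ, p.Prime → p ≠ 2 → ∀ e : ℕ, 1 ≤ e → e < r → h (p ^ e) = 0) :
    Summable fun n : ℕ => |h n| / (n : ℝ) ^ α :=
  summable_of_local_except hm hα hr hh one_le_two hlow

/-- **The Euler product.** -/
theorem hasProd_series {h : ArithmeticFunction ℝ} (hm : h.IsMultiplicative) {α : ℝ} (hα : 0 < α)
    (hs : Summable fun n : ℕ => |h n| / (n : ℝ) ^ α) :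
    HasProd (fun p : Nat.Primes => locSum h p ((p : ℝ) ^ α)⁻¹) (∑' n : ℕ, h n / (n : ℝ) ^ α) := by
  have h1 := EulerProduct.eulerProduct_hasProd (f := fun n : ℕ => h n / (n : ℝ) ^ α)
    (by simp [hm.map_one])
    (fun {m n} hc => by
      simp only [hm.map_mul_of_coprime hc, Nat.cast_mul,
        Real.mul_rpow (Nat.cast_nonneg m) (Nat.cast_nonneg n), mul_div_mul_comm])
    (hs.congr fun n => by
      rw [Real.norm_eq_abs, abs_div, abs_of_nonneg (Real.rpow_nonneg (Nat.cast_nonneg n) α)])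
    (by simp [Real.zero_rpow hα.ne'])
  refine h1.congr_fun fun p => ?_
  simp only [locSum, Nat.cast_pow]
  refine tsum_congr fun e => ?_
  rw [← Real.rpow_natCast_mul (Nat.cast_nonneg _), mul_comm (e : ℝ),
    Real.rpow_mul_natCast (Nat.cast_nonneg _), inv_pow, div_eq_mul_inv]

/-- The sum up to a real number. -/
def partialSum (f : ArithmeticFunction ℝ) (x : ℝ) : ℝ := ∑ n ∈ Finset.Ioc 0 ⌊x⌋₊, f n

theorem partialSum_mul (h b : ArithmeticFunction ℝ) (x : ℝ) :
    partialSum (h * b) x = ∑ n ∈ Finset.Ioc 0 ⌊x⌋₊, h n * partialSum b (x / n) := by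
  rw [partialSum, sum_Ioc_mul_eq_sum_sum]
  simp only [partialSum, Nat.floor_div_natCast]

/-- **The mean value of a convolution.** -/
theorem mean_convolution {h b : ArithmeticFunction ℝ} {α : ℝ} (β : ℕ) {c C : ℝ}
    (hlim : Tendsto (fun x => partialSum b x / (x ^ α * Real.log x ^ β)) atTop (𝓝 c))
    (hbd : ∀ x : ℝ, 1 ≤ x → |partialSum b x| ≤ C * x ^ α * (1 + Real.log x) ^ β)
    (hh : Summable fun n : ℕ => |h n| / (n : ℝ) ^ α) :
    Tendsto (fun x => partialSum (h * b) x / (x ^ α * Real.log x ^ β)) atTop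
      (𝓝 (c * ∑' n : ℕ, h n / (n : ℝ) ^ α)) := by
  have hC : 0 ≤ C := by
    have := hbd 1 le_rfl
    simp only [Real.one_rpow, Real.log_one, add_zero, one_pow, mul_one] at this
    exact (abs_nonneg _).trans this
  rw [← tsum_mul_left]
  set T : ℝ → ℕ → ℝ := fun x n => h n * partialSum b (x / n) / (x ^ α * Real.log x ^ β)
  have hzero : ∀ (x : ℝ) (n : ℕ), x < n → partialSum b (x / n) = 0 := fun x n hn => by
    have hf : ⌊x / n⌋₊ = 0 := Nat.floor_eq_zero.mpr (by
      rcases n.eq_zero_or_pos with rfl | hn0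
      · simp
      · rwa [div_lt_one (Nat.cast_pos.mpr hn0)])
    simp [partialSum, hf]
  have hsum : ∀ᶠ x in atTop, (∑' n, T x n) = partialSum (h * b) x / (x ^ α * Real.log x ^ β) := by
    filter_upwards with x
    rw [partialSum_mul, Finset.sum_div]
    refine tsum_eq_sum fun n hn => ?_
    rcases n.eq_zero_or_pos with rfl | hn0
    · simp [T]
    · rw [Finset.mem_Ioc, not_and, not_le] at hn
      simp only [T, hzero x n (Nat.lt_of_floor_lt (hn hn0)), mul_zero, zero_div]
  refine (tendsto_tsum_of_dominated_convergence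
    (bound := fun n => C * 2 ^ β * (|h n| / (n : ℝ) ^ α)) (hh.mul_left _) (fun n => ?_) ?_).congr'
    hsum
  · rcases n.eq_zero_or_pos with rfl | hn0
    · simp [T]
    have hn : (0 : ℝ) < n := Nat.cast_pos.mpr hn0
    have h1 := hlim.comp (tendsto_id.atTop_div_const hn)
    have h2 : Tendsto (fun x => (Real.log (x / n) / Real.log x) ^ β) atTop (𝓝 1) := by
      rw [← one_pow β]
      refine Tendsto.pow ?_ β
      have h3 : Tendsto (fun x => 1 - Real.log n / Real.log x) atTop (𝓝 1) := by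
        simpa using tendsto_const_nhds.sub (tendsto_const_nhds.div_atTop Real.tendsto_log_atTop)
      refine h3.congr' ?_
      filter_upwards [eventually_gt_atTop 1] with x hx
      rw [Real.log_div (by linarith) hn.ne', sub_div, div_self (Real.log_pos hx).ne']
    have h4 := ((h1.mul h2).const_mul (h n)).div_const ((n : ℝ) ^ α)
    rw [mul_one, show h n * c / (n : ℝ) ^ α = c * (h n / (n : ℝ) ^ α) by ring] at h4
    refine h4.congr' ?_
    filter_upwards [eventually_gt_atTop (n : ℝ), eventually_gt_atTop 1] with x hx hx1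
    have hl : Real.log (x / n) ≠ 0 :=
      (Real.log_pos ((one_lt_div hn).mpr hx)).ne'
    have hα' : (n : ℝ) ^ α ≠ 0 := (Real.rpow_pos_of_pos hn α).ne'
    have hx' : x ^ α ≠ 0 := (Real.rpow_pos_of_pos (by linarith) α).ne'
    have hlx : Real.log x ≠ 0 := (Real.log_pos hx1).ne'
    simp only [T, Function.comp, id]
    rw [Real.div_rpow (by linarith) hn.le, div_pow]
    field_simp
  · filter_upwards [eventually_ge_atTop (Real.exp 1)] with x hx n
    have hx0 : 0 < x := lt_of_lt_of_le (Real.exp_pos 1) hx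
    have hL : 1 ≤ Real.log x := by rwa [Real.le_log_iff_exp_le hx0]
    have hden : 0 < x ^ α * Real.log x ^ β :=
      mul_pos (Real.rpow_pos_of_pos hx0 α) (pow_pos (lt_of_lt_of_le one_pos hL) β)
    have hrhs : 0 ≤ C * 2 ^ β * (|h n| / (n : ℝ) ^ α) :=
      mul_nonneg (mul_nonneg hC (by positivity))
        (div_nonneg (abs_nonneg _) (Real.rpow_nonneg (Nat.cast_nonneg n) α))
    rcases lt_or_ge x n with hn | hn
    · simp only [T, hzero x n hn, mul_zero, zero_div, norm_zero]
      exact hrhs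
    rcases n.eq_zero_or_pos with rfl | hn0
    · simp [T]
    have hn' : (0 : ℝ) < n := Nat.cast_pos.mpr hn0
    have h1 := hbd (x / n) ((one_le_div hn').mpr hn)
    have h2 : 1 + Real.log (x / n) ≤ 2 * Real.log x := by
      rw [Real.log_div hx0.ne' hn'.ne']
      have : 0 ≤ Real.log n := Real.log_nonneg (Nat.one_le_cast.mpr hn0)
      linarith
    have h3 : 0 ≤ 1 + Real.log (x / n) := by
      have := Real.log_nonneg ((one_le_div hn').mpr hn)
      linarith
    simp only [T, Real.norm_eq_abs, abs_div, abs_mul, abs_of_pos (Real.rpow_pos_of_pos hx0 α),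
      abs_of_pos (pow_pos (lt_of_lt_of_le one_pos hL) β)]
    rw [div_le_iff₀ hden]
    calc |h n| * |partialSum b (x / n)|
        ≤ |h n| * (C * (x / n) ^ α * (2 * Real.log x) ^ β) :=
          mul_le_mul_of_nonneg_left (h1.trans (mul_le_mul_of_nonneg_left
            (pow_le_pow_left₀ h3 h2 β) (mul_nonneg hC (Real.rpow_nonneg (by positivity) α))))
            (abs_nonneg _)
      _ = C * 2 ^ β * (|h n| / (n : ℝ) ^ α) * (x ^ α * Real.log x ^ β) := by
          rw [Real.div_rpow hx0.le hn'.le, mul_pow]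
          ring

theorem le_floor_sqrt_iff (m : ℕ) (x : ℝ) : m ≤ ⌊Real.sqrt x⌋₊ ↔ m * m ≤ ⌊x⌋₊ := by
  rcases le_or_gt 0 x with hx | hx
  · rw [Nat.le_floor_iff (Real.sqrt_nonneg x), Nat.le_floor_iff hx,
      Real.le_sqrt (Nat.cast_nonneg m) hx, Nat.cast_mul, pow_two]
  · rw [Real.sqrt_eq_zero'.mpr hx.le, Nat.floor_zero, Nat.floor_of_nonpos hx.le, Nat.le_zero,
      Nat.le_zero, mul_self_eq_zero]

/-- A function on the squares. -/
theorem partialSum_sqLift (b : ArithmeticFunction ℝ) (x : ℝ) :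
    partialSum (sqLift b) x = partialSum b (Real.sqrt x) := by
  rw [partialSum, partialSum]
  refine (sum_of_injOn (fun m => m * m) (fun _ _ _ _ h => Nat.mul_self_inj.mp h) (fun m hm => ?_)
    (fun n hn hne => ?_) fun m _ => (sqLift_sq b m).symm).symm
  · rw [Finset.mem_coe, Finset.mem_Ioc] at hm ⊢
    exact ⟨Nat.mul_pos hm.1 hm.1, (le_floor_sqrt_iff m x).mp hm.2⟩
  · refine sqLift_eq_zero b fun ⟨m, hm⟩ => hne ?_
    rw [Finset.mem_Ioc] at hn
    subst hm
    exact ⟨m, Finset.mem_coe.mpr (Finset.mem_Ioc.mpr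
      ⟨Nat.pos_of_mul_pos_left hn.1, (le_floor_sqrt_iff m x).mpr hn.2⟩), rfl⟩

end FA.AbelianQuartic
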