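import Fermat.Agent.AbelianQuartic.Tally
import Fermat.Agent.CubicCount.Fields
import Mathlib.GroupTheory.PGroup
import Mathlib.GroupTheory.SpecificGroups.Cyclic

/-!
# Galois quartic fields as groups of four characters

The fields in `ℂ` with `|d| ≤ X` lie in `ℚ(μ_{X!})` and are the subgroups of four characters whose
conductors have product at most `X`; cyclic fields have groups with an element of order four.
-/

set_option autoImplicit false
set_option linter.style.haveILetI false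

noncomputable section

open NumberField DirichletCharacter IntermediateField Module
open FA.CubicCount (rootsField rootsField_mono exists_le_rootsField)
open scoped Classical Nat

namespace FA.AbelianQuartic

theorem isCyclic_iff_exists_sq_ne_one {G : Type*} [Group G] (h : Nat.card G = 4) :
    IsCyclic G ↔ ∃ g : G, g ^ 2 ≠ 1 := by
  haveI : Finite G := Nat.finite_of_card_ne_zero (by omega)
  constructor
  · intro hc
    obtain ⟨g, hg⟩ := IsCyclic.exists_ofOrder_eq_natCard (α := G)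
    refine ⟨g, fun e => ?_⟩
    have := Nat.le_of_dvd two_pos (orderOf_dvd_iff_pow_eq_one.mpr e)
    omega
  · rintro ⟨g, hg⟩
    refine isCyclic_of_orderOf_eq_card g ?_
    have hd : orderOf g ∣ 2 ^ 2 := by
      rw [show (2 : ℕ) ^ 2 = Nat.card G by rw [h]; rfl]; exact orderOf_dvd_natCard g
    obtain ⟨i, hi, he⟩ := (Nat.dvd_prime_pow Nat.prime_two).mp hd
    rw [h, he]
    interval_cases i
    · exact absurd (by rw [orderOf_eq_one_iff.mp (he.trans (pow_zero 2)), one_pow]) hg
    · exact absurd (by rw [← orderOf_dvd_iff_pow_eq_one, he, pow_one]) hg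
    · rfl

theorem isAbelianGalois_quartic (F : Type*) [Field F] [Algebra ℚ F] [IsGalois ℚ F]
    (h4 : finrank ℚ F = 4) : IsAbelianGalois ℚ F := by
  haveI : FiniteDimensional ℚ F := Module.finite_of_finrank_pos (by omega)
  haveI : Fact (Nat.Prime 2) := ⟨Nat.prime_two⟩
  haveI : IsMulCommutative Gal(F/ℚ) := IsPGroup.isMulCommutative_of_card_eq_prime_sq (p := 2)
    (by rw [IsGalois.card_aut_eq_finrank, h4]; norm_num)
  exact ⟨⟩

variable (N : ℕ) [NeZero N]

/-- The field of a group of characters. -/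
def charsField (H : Subgroup (DirichletCharacter ℂ N)) : IntermediateField ℚ ℂ :=
  lift ((IsCyclotomicExtension.Rat.intermediateFieldEquivSubgroupChar N (rootsField N) ℂ).symm H)

/-- The product of the conductors in a group. -/
def condProd (H : Subgroup (DirichletCharacter ℂ N)) : ℕ :=
  ∏ χ ∈ Finset.univ.filter (fun χ => χ ∈ H), χ.conductor

theorem charsField_injective : Function.Injective (charsField N) := fun _ _ h =>
  (OrderIso.injective _) (lift_injective (rootsField N) h)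

set_option backward.isDefEq.respectTransparency false in
theorem charsField_basic (H : Subgroup (DirichletCharacter ℂ N)) :
    finrank ℚ (charsField N H) = Nat.card H ∧ IsGalois ℚ (charsField N H) ∧
      ∃ _ : NumberField (charsField N H), (discr (charsField N H)).natAbs = condProd N H := by
  set iso := IsCyclotomicExtension.Rat.intermediateFieldEquivSubgroupChar N (rootsField N) ℂ
    with hiso
  set E := iso.symm H with hE
  have hX : FA.AbelianZeta.fieldChars N (rootsField N) E = H := iso.apply_symm_apply _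
  haveI : NumberField (lift E) :=
    NumberField.of_ringEquiv _ (lift E) (liftAlgEquiv E).toRingEquiv
  haveI hnf : NumberField (charsField N H) := ‹NumberField (lift E)›
  refine ⟨?_, IsGalois.of_algEquiv (liftAlgEquiv E), hnf, ?_⟩
  · refine (liftAlgEquiv E).toLinearEquiv.finrank_eq.symm.trans ?_
    rw [← IsCyclotomicExtension.Rat.card_intermediateFieldEquivSubgroupChar N (rootsField N) ℂ E,
      ← hiso, hE, iso.apply_symm_apply]
  · show (discr (lift E)).natAbs = _
    rw [FA.ConductorDiscr.discr_eq_prod (n := N) (rootsField N) E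
      (liftAlgEquiv E).symm.toRingEquiv, hX, condProd]

set_option backward.isDefEq.respectTransparency false in
/-- **Cyclic fields, cyclic groups.** -/
theorem isCyclic_charsField_iff {H : Subgroup (DirichletCharacter ℂ N)} (h4 : Nat.card H = 4) :
    IsCyclic Gal(charsField N H/ℚ) ↔ ∃ χ ∈ H, χ ^ 2 ≠ 1 := by
  set iso := IsCyclotomicExtension.Rat.intermediateFieldEquivSubgroupChar N (rootsField N) ℂ
    with hiso
  set E := iso.symm H with hE
  haveI : IsGalois ℚ E := inferInstance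
  let e : Gal(charsField N H/ℚ) ≃* Gal(E/ℚ) := (liftAlgEquiv E).symm.autCongr
  have hcard : Nat.card Gal(E/ℚ) = 4 := by
    rw [IsGalois.card_aut_eq_finrank, ← h4,
      ← IsCyclotomicExtension.Rat.card_intermediateFieldEquivSubgroupChar N (rootsField N) ℂ E,
      ← hiso, hE, iso.apply_symm_apply]
  have hmem : ∀ χ, χ ∈ H ↔ ∀ σ : Gal(rootsField N/ℚ), σ ∈ E.fixingSubgroup →
      χ (IsCyclotomicExtension.Rat.galEquivZMod N (rootsField N) σ) = 1 := fun χ => by
    conv_lhs => rw [← iso.apply_symm_apply H]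
    exact IsCyclotomicExtension.Rat.mem_intermediateFieldEquivSubgroupChar_iff N (rootsField N) ℂ
      E χ
  have hfix : ∀ σ : Gal(rootsField N/ℚ), (∀ χ ∈ H,
      χ (IsCyclotomicExtension.Rat.galEquivZMod N (rootsField N) σ) = 1) →
        σ ∈ E.fixingSubgroup := by
    intro σ hσ
    set G := IsCyclotomicExtension.Rat.subgroupGalEquivSubgroupChar N (rootsField N) ℂ
    have hG : (G E.fixingSubgroup).ofDual = H := by
      ext χ
      rw [IsCyclotomicExtension.Rat.mem_subgroupGalEquivSubgroupChar_iff, hmem]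
    have h := (IsCyclotomicExtension.Rat.mem_subgroupGalEquivSubgroupChar_symm_iff N
      (rootsField N) ℂ σ H).mpr hσ
    rwa [← hG, OrderDual.toDual_ofDual, OrderIso.symm_apply_apply] at h
  have hres : ∀ σ : Gal(rootsField N/ℚ),
      σ.restrictNormal E = 1 ↔ σ ∈ E.fixingSubgroup := fun σ => by
    rw [AlgEquiv.restrictNormal_eq_one_iff, IntermediateField.mem_fixingSubgroup_iff]
  rw [e.isCyclic, isCyclic_iff_exists_sq_ne_one hcard]
  constructor
  · rintro ⟨τ, hτ⟩
    by_contra hc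
    push Not at hc
    obtain ⟨σ, rfl⟩ := AlgEquiv.restrictNormalHom_surjective (F := ℚ) (K₁ := E)
      (E := rootsField N) τ
    refine hτ ?_
    rw [← map_pow]
    refine (hres _).mpr (hfix _ fun χ hχ => ?_)
    rw [map_pow, Units.val_pow_eq_pow_val, map_pow, ← MulChar.pow_apply_coe, hc χ hχ,
      MulChar.one_apply_coe]
  · rintro ⟨χ, hχ, hne⟩
    by_contra hc
    push Not at hc
    refine hne (MulChar.ext fun u => ?_)
    obtain ⟨σ, rfl⟩ := (IsCyclotomicExtension.Rat.galEquivZMod N (rootsField N)).surjective u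
    have h2 : σ ^ 2 ∈ E.fixingSubgroup := (hres _).mp (by
      show AlgEquiv.restrictNormalHom (F := ℚ) E (σ ^ 2) = 1
      rw [map_pow]; exact hc _)
    have h := (hmem χ).mp hχ _ h2
    rw [map_pow, Units.val_pow_eq_pow_val, map_pow] at h
    rw [MulChar.pow_apply_coe, h, MulChar.one_apply_coe]

/-- The Galois quartic fields in `ℂ` with bounded discriminant. -/
def quartics (X : ℕ) : Set (IntermediateField ℚ ℂ) :=
  {F | finrank ℚ F = 4 ∧ IsGalois ℚ F ∧ ∃ _ : NumberField F, (discr F).natAbs ≤ X}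

/-- The groups of four characters with small product of conductors. -/
def quarticGroups (X : ℕ) : Finset (Subgroup (DirichletCharacter ℂ N)) :=
  (Set.toFinite
    {H : Subgroup (DirichletCharacter ℂ N) | Nat.card H = 4 ∧ condProd N H ≤ X}).toFinset

omit [NeZero N] in
theorem mem_quarticGroups {X : ℕ} {H : Subgroup (DirichletCharacter ℂ N)} :
    H ∈ quarticGroups N X ↔ Nat.card H = 4 ∧ condProd N H ≤ X :=
  Set.Finite.mem_toFinset _

variable {N}

set_option backward.isDefEq.respectTransparency false in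
/-- **All the fields come from groups.** -/
theorem image_quarticGroups {X : ℕ} (hN : ∀ d, d ≠ 0 → d ≤ X → d ∣ N) :
    charsField N '' (quarticGroups N X : Set (Subgroup (DirichletCharacter ℂ N))) = quartics X := by
  ext F
  constructor
  · rintro ⟨H, hH, rfl⟩
    obtain ⟨h4, hd⟩ := (mem_quarticGroups N).mp (Finset.mem_coe.mp hH)
    obtain ⟨hr, hg, hnf, hD⟩ := charsField_basic N H
    exact ⟨hr.trans h4, hg, hnf, hD.trans_le hd⟩
  · rintro ⟨h4, hgal, hnf, hd⟩
    haveI := isAbelianGalois_quartic F h4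
    have hdN : (discr F).natAbs ∣ N := hN _ (Int.natAbs_ne_zero.mpr (discr_ne_zero F)) hd
    obtain ⟨n, hNn, hn, hle⟩ := exists_le_rootsField F N
    haveI : NeZero n := ⟨hn⟩
    have hle' : F ≤ rootsField N := by
      have hK := rootsField_mono hNn hn
      haveI : IsCyclotomicExtension {N} ℚ (restrict hK) :=
        IsCyclotomicExtension.equiv {N} ℚ _ (restrictAlgEquiv hK)
      haveI : IsGalois ℚ (restrict hK) := IsCyclotomicExtension.isGalois {N} ℚ _
      have hprod := FA.ConductorDiscr.discr_eq_prod (n := n) (rootsField n) (restrict hle)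
        (restrictAlgEquiv hle).toRingEquiv
      have hsub : FA.AbelianZeta.fieldChars n (rootsField n) (restrict hle) ≤
          FA.AbelianZeta.fieldChars n (rootsField n) (restrict hK) := fun χ hχ => by
        rw [FA.AbelianZeta.fieldChars,
          IsCyclotomicExtension.Rat.mem_intermediateFieldEquivSubgroupChar_iff_conductor_dvd n
            (rootsField n) ℂ _ hNn]
        refine Dvd.dvd.trans ?_ hdN
        rw [hprod]
        exact Finset.dvd_prod_of_mem _ (Finset.mem_filter.mpr ⟨Finset.mem_univ _, hχ⟩)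
      have h := (IsCyclotomicExtension.Rat.intermediateFieldEquivSubgroupChar n (rootsField n)
        ℂ).le_iff_le.mp hsub
      intro x hx
      exact (mem_restrict hK ⟨x, hle hx⟩).mp (h ((mem_restrict hle ⟨x, hle hx⟩).mpr hx))
    refine ⟨FA.AbelianZeta.fieldChars N (rootsField N) (restrict hle'),
      Finset.mem_coe.mpr ((mem_quarticGroups N).mpr ⟨?_, ?_⟩), ?_⟩
    · rw [FA.AbelianZeta.fieldChars,
        IsCyclotomicExtension.Rat.card_intermediateFieldEquivSubgroupChar]
      exact (restrictAlgEquiv hle').toLinearEquiv.finrank_eq.symm.trans h4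
    · refine le_of_eq_of_le ?_ hd
      rw [FA.ConductorDiscr.discr_eq_prod (n := N) (rootsField N) (restrict hle')
        (restrictAlgEquiv hle').toRingEquiv, condProd]
    · rw [charsField, FA.AbelianZeta.fieldChars, OrderIso.symm_apply_apply, lift_restrict]

theorem finite_quartics (X : ℕ) : (quartics X).Finite := by
  haveI : NeZero X ! := ⟨Nat.factorial_ne_zero X⟩
  rw [← image_quarticGroups (N := X !) fun d h0 h =>
    Nat.dvd_factorial (Nat.pos_of_ne_zero h0) h]
  exact (Finset.finite_toSet _).image _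

theorem ncard_cyclic_quartics {X : ℕ} (hN : ∀ d, d ≠ 0 → d ≤ X → d ∣ N) :
    {F | F ∈ quartics X ∧ IsCyclic Gal(F/ℚ)}.ncard =
      ((quarticGroups N X).filter fun H => ∃ χ ∈ H, χ ^ 2 ≠ 1).card := by
  rw [← Set.ncard_coe_finset, ← Set.ncard_image_of_injective _ (charsField_injective N)]
  congr 1
  ext F
  rw [← image_quarticGroups hN]
  constructor
  · rintro ⟨⟨H, hH, rfl⟩, hc⟩
    exact ⟨H, Finset.mem_coe.mpr (Finset.mem_filter.mpr ⟨hH, (isCyclic_charsField_iff N
      ((mem_quarticGroups N).mp hH).1).mp hc⟩), rfl⟩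
  · rintro ⟨H, hH, rfl⟩
    obtain ⟨hH1, hH2⟩ := Finset.mem_filter.mp (Finset.mem_coe.mp hH)
    exact ⟨⟨H, hH1, rfl⟩,
      (isCyclic_charsField_iff N ((mem_quarticGroups N).mp hH1).1).mpr hH2⟩

theorem ncard_noncyclic_quartics {X : ℕ} (hN : ∀ d, d ≠ 0 → d ≤ X → d ∣ N) :
    {F | F ∈ quartics X ∧ ¬IsCyclic Gal(F/ℚ)}.ncard =
      ((quarticGroups N X).filter fun H => ∀ χ ∈ H, χ ^ 2 = 1).card := by
  rw [← Set.ncard_coe_finset, ← Set.ncard_image_of_injective _ (charsField_injective N)]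
  congr 1
  ext F
  rw [← image_quarticGroups hN]
  constructor
  · rintro ⟨⟨H, hH, rfl⟩, hc⟩
    refine ⟨H, Finset.mem_coe.mpr (Finset.mem_filter.mpr ⟨hH, fun χ hχ => ?_⟩), rfl⟩
    by_contra hne
    exact hc ((isCyclic_charsField_iff N ((mem_quarticGroups N).mp hH).1).mpr ⟨χ, hχ, hne⟩)
  · rintro ⟨H, hH, rfl⟩
    obtain ⟨hH1, hH2⟩ := Finset.mem_filter.mp (Finset.mem_coe.mp hH)
    refine ⟨⟨H, hH1, rfl⟩, fun hc => ?_⟩
    obtain ⟨χ, hχ, hne⟩ :=
      (isCyclic_charsField_iff N ((mem_quarticGroups N).mp hH1).1).mp hc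
    exact hne (hH2 χ hχ)

/-! ### Groups and generators -/

omit [NeZero N] in
theorem filter_mem_eq {H : Subgroup (DirichletCharacter ℂ N)}
    (s : Finset (DirichletCharacter ℂ N)) (hs : ∀ x ∈ s, x ∈ H) (hc : Nat.card H ≤ s.card) :
    Finset.univ.filter (fun χ => χ ∈ H) = s := by
  refine (Finset.eq_of_subset_of_card_le (fun x hx => Finset.mem_filter.mpr
    ⟨Finset.mem_univ _, hs x hx⟩) ?_).symm
  rwa [← Fintype.card_subtype, ← Nat.card_eq_fintype_card]

theorem cyclic_facts {G : Type*} [Group G] {g : G} (h4 : g ^ 4 = 1) (h2 : g ^ 2 ≠ 1) :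
    orderOf g = 4 ∧ g ≠ 1 ∧ g ^ 3 ≠ 1 ∧ g ≠ g ^ 2 ∧ g ≠ g ^ 3 ∧ g ^ 2 ≠ g ^ 3 := by
  have h1 : g ≠ 1 := fun e => h2 (by rw [e, one_pow])
  have ho : orderOf g = 4 := by
    refine orderOf_eq_prime_pow (p := 2) (n := 1) ?_ h4
    simpa using h2
  refine ⟨ho, h1, fun e => ?_, fun e => ?_, fun e => ?_, fun e => ?_⟩
  all_goals
    first
      | (have := Nat.le_of_dvd three_pos (orderOf_dvd_iff_pow_eq_one.mpr e); omega)
      | (rw [pow_succ' g 1, pow_one, left_eq_mul] at e; exact h1 e)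
      | (rw [pow_succ' g 2, left_eq_mul] at e; exact h2 e)
      | (rw [pow_succ g 2, left_eq_mul] at e; exact h1 e)

/-- The group of one character of order four. -/
theorem zpowers_facts {χ : DirichletCharacter ℂ N} (h4 : χ ^ 4 = 1) (h2 : χ ^ 2 ≠ 1) :
    Nat.card (Subgroup.zpowers χ) = 4 ∧
      condProd N (Subgroup.zpowers χ) = prodCond cyc (χ, 1) ∧
      Finset.univ.filter (fun ψ => ψ ∈ Subgroup.zpowers χ) = {1, χ, χ ^ 2, χ ^ 3} := by
  obtain ⟨ho, h1, h3, h12, h13, h23⟩ := cyclic_facts h4 h2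
  have hc : Nat.card (Subgroup.zpowers χ) = 4 := by rw [Nat.card_zpowers, ho]
  have hset : Finset.univ.filter (fun ψ => ψ ∈ Subgroup.zpowers χ) = {1, χ, χ ^ 2, χ ^ 3} := by
    refine filter_mem_eq _ (fun x hx => ?_) ?_
    · simp only [Finset.mem_insert, Finset.mem_singleton] at hx
      rcases hx with rfl | rfl | rfl | rfl
      exacts [one_mem _, Subgroup.mem_zpowers _, Subgroup.npow_mem_zpowers _ _,
        Subgroup.npow_mem_zpowers _ _]
    · rw [hc, Finset.card_insert_of_notMem (by simp [h1.symm, Ne.symm h2, Ne.symm h3]),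
        Finset.card_insert_of_notMem (by simp [h12, h13]), Finset.card_pair h23]
  refine ⟨hc, ?_, hset⟩
  rw [condProd, hset, Finset.prod_insert (by simp [h1.symm, Ne.symm h2, Ne.symm h3]),
    Finset.prod_insert (by simp [h12, h13]), Finset.prod_pair h23, conductor_one, one_mul, prodCond,
    cyc]
  simp

/-- **Cyclic groups have two generators.** -/
theorem two_mul_cyclic_groups (X : ℕ) :
    2 * ((quarticGroups N X).filter fun H => ∃ χ ∈ H, χ ^ 2 ≠ 1).card =
      (Finset.univ.filter fun χ : DirichletCharacter ℂ N =>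
        χ ^ 4 = 1 ∧ χ ^ 2 ≠ 1 ∧ prodCond cyc (χ, 1) ≤ X).card := by
  set T := Finset.univ.filter fun χ : DirichletCharacter ℂ N =>
    χ ^ 4 = 1 ∧ χ ^ 2 ≠ 1 ∧ prodCond cyc (χ, 1) ≤ X
  have hmaps : ∀ χ ∈ T, Subgroup.zpowers χ ∈
      (quarticGroups N X).filter fun H => ∃ χ ∈ H, χ ^ 2 ≠ 1 := fun χ hχ => by
    obtain ⟨h4, h2, hd⟩ := (Finset.mem_filter.mp hχ).2
    obtain ⟨hc, hp, -⟩ := zpowers_facts h4 h2
    exact Finset.mem_filter.mpr ⟨(mem_quarticGroups N).mpr ⟨hc, hp ▸ hd⟩, χ,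
      Subgroup.mem_zpowers χ, h2⟩
  rw [Finset.card_eq_sum_card_fiberwise hmaps, Finset.sum_const_nat (m := 2) fun H hH => ?_,
    mul_comm]
  obtain ⟨hH, χ, hχ, h2⟩ := Finset.mem_filter.mp hH
  obtain ⟨hc, hd⟩ := (mem_quarticGroups N).mp hH
  have h4 : χ ^ 4 = 1 := orderOf_dvd_iff_pow_eq_one.mp (hc ▸ Subgroup.orderOf_dvd_natCard _ hχ)
  obtain ⟨hcz, hp, hset⟩ := zpowers_facts h4 h2
  obtain rfl : Subgroup.zpowers χ = H :=
    Subgroup.eq_of_le_of_card_ge (Subgroup.zpowers_le.mpr hχ) (by rw [hc, hcz])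
  obtain ⟨-, -, -, -, h13, -⟩ := cyclic_facts h4 h2
  rw [← Finset.card_pair h13]
  congr 1
  ext ψ
  simp only [Finset.mem_filter, T, Finset.mem_univ, true_and, Finset.mem_insert,
    Finset.mem_singleton]
  constructor
  · rintro ⟨⟨-, hψ2, -⟩, he⟩
    have hψ : ψ ∈ Finset.univ.filter (fun ρ => ρ ∈ Subgroup.zpowers χ) :=
      Finset.mem_filter.mpr ⟨Finset.mem_univ _, he ▸ Subgroup.mem_zpowers ψ⟩
    rw [hset] at hψ
    simp only [Finset.mem_insert, Finset.mem_singleton] at hψ
    rcases hψ with rfl | rfl | rfl | rfl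
    · exact absurd (one_pow 2) hψ2
    · exact Or.inl rfl
    · exact absurd (by rw [← pow_mul]; exact h4) hψ2
    · exact Or.inr rfl
  · intro hψ
    have hψ4 : ψ ^ 4 = 1 := by
      rcases hψ with rfl | rfl
      · exact h4
      · rw [← pow_mul, show 3 * 4 = 4 * 3 from rfl, pow_mul, h4, one_pow]
    have hψ2 : ψ ^ 2 ≠ 1 := by
      rcases hψ with rfl | rfl
      · exact h2
      · rw [← pow_mul, show χ ^ (3 * 2) = χ ^ 2 * χ ^ 4 by rw [← pow_add], h4, mul_one]
        exact h2
    have hmem : ψ ∈ Subgroup.zpowers χ := by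
      rcases hψ with rfl | rfl
      exacts [Subgroup.mem_zpowers _, Subgroup.npow_mem_zpowers _ _]
    obtain ⟨hcψ, hpψ, -⟩ := zpowers_facts hψ4 hψ2
    have he : Subgroup.zpowers ψ = Subgroup.zpowers χ :=
      Subgroup.eq_of_le_of_card_ge (Subgroup.zpowers_le.mpr hmem) (by rw [hcz, hcψ])
    exact ⟨⟨hψ4, hψ2, by rw [← hpψ, he]; exact hd⟩, he⟩

theorem eq_one_or_self_of_mem_zpowers {G : Type*} [Group G] {g x : G} (h : g ^ 2 = 1)
    (hx : x ∈ Subgroup.zpowers g) : x = 1 ∨ x = g := by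
  obtain ⟨j, rfl⟩ := Subgroup.mem_zpowers_iff.mp hx
  rw [zpow_eq_zpow_emod' j h]
  rcases Int.emod_two_eq_zero_or_one j with e | e
  · left; push_cast; rw [e, zpow_zero]
  · right; push_cast; rw [e, zpow_one]

/-- The group of two characters of order two. -/
theorem sup_facts {χ ψ : DirichletCharacter ℂ N} (hχ : χ ^ 2 = 1) (hψ : ψ ^ 2 = 1) (h1 : χ ≠ 1)
    (h1' : ψ ≠ 1) (hne : χ ≠ ψ) :
    Nat.card ↥(Subgroup.zpowers χ ⊔ Subgroup.zpowers ψ) = 4 ∧
      condProd N (Subgroup.zpowers χ ⊔ Subgroup.zpowers ψ) = prodCond klein (χ, ψ) ∧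
      ∀ x ∈ Subgroup.zpowers χ ⊔ Subgroup.zpowers ψ, x ^ 2 = 1 := by
  have h12 : χ * ψ ≠ 1 := fun e => hne (by
    rw [pow_two] at hψ
    exact (eq_inv_of_mul_eq_one_left e).trans (eq_inv_of_mul_eq_one_left hψ).symm)
  have hχψ : χ ≠ χ * ψ := fun e => h1' (left_eq_mul.mp e)
  have hψχ : ψ ≠ χ * ψ := fun e => h1 (right_eq_mul.mp e)
  set s : Finset (DirichletCharacter ℂ N) := {1, χ, ψ, χ * ψ}
  have hs : s.card = 4 := by
    rw [Finset.card_insert_of_notMem (by simp [h1.symm, h1'.symm, Ne.symm h12]),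
      Finset.card_insert_of_notMem (by simp [hne, hχψ]), Finset.card_pair hψχ]
  have hmem : ∀ x, x ∈ Subgroup.zpowers χ ⊔ Subgroup.zpowers ψ ↔ x ∈ s := fun x => by
    simp only [s, Finset.mem_insert, Finset.mem_singleton]
    constructor
    · intro hx
      obtain ⟨a, ha, b, hb, rfl⟩ := Subgroup.mem_sup.mp hx
      rcases eq_one_or_self_of_mem_zpowers hχ ha with rfl | rfl <;>
        rcases eq_one_or_self_of_mem_zpowers hψ hb with rfl | rfl <;> simp
    · have m1 : χ ∈ Subgroup.zpowers χ ⊔ Subgroup.zpowers ψ :=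
        Subgroup.mem_sup_left (Subgroup.mem_zpowers χ)
      have m2 : ψ ∈ Subgroup.zpowers χ ⊔ Subgroup.zpowers ψ :=
        Subgroup.mem_sup_right (Subgroup.mem_zpowers ψ)
      rintro (rfl | rfl | rfl | rfl)
      exacts [one_mem _, m1, m2, mul_mem m1 m2]
  have hset : Finset.univ.filter (fun x => x ∈ Subgroup.zpowers χ ⊔ Subgroup.zpowers ψ) = s := by
    ext x
    rw [Finset.mem_filter, hmem]
    exact ⟨fun h => h.2, fun h => ⟨Finset.mem_univ _, h⟩⟩
  refine ⟨?_, ?_, fun x hx => ?_⟩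
  · rw [Nat.card_eq_fintype_card, Fintype.card_subtype, hset, hs]
  · rw [condProd, hset, Finset.prod_insert (by simp [h1.symm, h1'.symm, Ne.symm h12]),
      Finset.prod_insert (by simp [hne, hχψ]), Finset.prod_pair hψχ, conductor_one, one_mul,
      prodCond, klein]
    simp
  · rw [hmem] at hx
    simp only [s, Finset.mem_insert, Finset.mem_singleton] at hx
    rcases hx with rfl | rfl | rfl | rfl
    exacts [one_pow 2, hχ, hψ, by rw [mul_pow, hχ, hψ, one_mul]]

/-- **Noncyclic groups have six bases.** -/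
theorem six_mul_klein_groups (X : ℕ) :
    6 * ((quarticGroups N X).filter fun H => ∀ χ ∈ H, χ ^ 2 = 1).card =
      (Finset.univ.filter fun v : DirichletCharacter ℂ N × DirichletCharacter ℂ N =>
        Valid klein v ∧ v.1 ≠ 1 ∧ v.2 ≠ 1 ∧ v.1 ≠ v.2 ∧ prodCond klein v ≤ X).card := by
  set T := Finset.univ.filter fun v : DirichletCharacter ℂ N × DirichletCharacter ℂ N =>
    Valid klein v ∧ v.1 ≠ 1 ∧ v.2 ≠ 1 ∧ v.1 ≠ v.2 ∧ prodCond klein v ≤ X
  have hmaps : ∀ v ∈ T, Subgroup.zpowers v.1 ⊔ Subgroup.zpowers v.2 ∈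
      (quarticGroups N X).filter fun H => ∀ χ ∈ H, χ ^ 2 = 1 := fun v hv => by
    obtain ⟨⟨hχ, hψ⟩, h1, h1', hne, hd⟩ := (Finset.mem_filter.mp hv).2
    obtain ⟨hc, hp, hsq⟩ := sup_facts hχ hψ h1 h1' hne
    exact Finset.mem_filter.mpr ⟨(mem_quarticGroups N).mpr ⟨hc, hp ▸ hd⟩, hsq⟩
  rw [Finset.card_eq_sum_card_fiberwise hmaps, Finset.sum_const_nat (m := 6) fun H hH => ?_,
    mul_comm]
  obtain ⟨hH, hsq⟩ := Finset.mem_filter.mp hH
  obtain ⟨hc, hd⟩ := (mem_quarticGroups N).mp hH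
  set P := ((Finset.univ.filter fun χ => χ ∈ H).erase 1).offDiag
  have hP : P.card = 6 := by
    rw [Finset.offDiag_card, Finset.card_erase_of_mem
      (Finset.mem_filter.mpr ⟨Finset.mem_univ _, one_mem H⟩), ← Fintype.card_subtype,
      ← Nat.card_eq_fintype_card, hc]
  rw [← hP]
  congr 1
  ext v
  simp only [Finset.mem_filter, T, P, Finset.mem_univ, true_and, Finset.mem_offDiag,
    Finset.mem_erase]
  constructor
  · rintro ⟨⟨-, h1, h1', hne, -⟩, he⟩
    exact ⟨⟨h1, he ▸ Subgroup.mem_sup_left (Subgroup.mem_zpowers _)⟩,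
      ⟨h1', he ▸ Subgroup.mem_sup_right (Subgroup.mem_zpowers _)⟩, hne⟩
  · rintro ⟨⟨h1, hm⟩, ⟨h1', hm'⟩, hne⟩
    obtain ⟨hc', hp, -⟩ := sup_facts (hsq _ hm) (hsq _ hm') h1 h1' hne
    have he : Subgroup.zpowers v.1 ⊔ Subgroup.zpowers v.2 = H :=
      Subgroup.eq_of_le_of_card_ge
        (sup_le (Subgroup.zpowers_le.mpr hm) (Subgroup.zpowers_le.mpr hm')) (by rw [hc, hc'])
    exact ⟨⟨⟨hsq _ hm, hsq _ hm'⟩, h1, h1', hne, by rw [← hp, he]; exact hd⟩, he⟩

end FA.AbelianQuartic
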