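import Fermat.Agent.AbelianQuartic.Tally
import Mathlib.RingTheory.ZMod.UnitsCyclic
import Mathlib.NumberTheory.Basic

/-!
# The counts at the prime powers

Characters killed by four live at level `p` for an odd prime `p` and at level `16` for `2`; there
they form a known finite group with known conductors, and the counts follow by enumeration.
-/

set_option autoImplicit false
set_option linter.style.haveILetI false

noncomputable section

open DirichletCharacter

namespace FA.AbelianQuartic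

/-- The pairs of a finite model with a given sum of exponents. -/
def model (S : Shape) {A : Type} [AddCommGroup A] [Fintype A] [DecidableEq A] (ex : A → ℕ)
    (e : ℕ) : Finset (A × A) :=
  Finset.univ.filter fun v => S.k • v.1 = 0 ∧ S.k' • v.2 = 0 ∧
    ∑ w ∈ S.W, ex (w.1 • v.1 + w.2 • v.2) = e

section Model

variable {N : ℕ} [NeZero N] {A : Type} [AddCommGroup A] [Fintype A] [DecidableEq A]
  (emb : A → DirichletCharacter ℂ N)

omit [NeZero N] in
theorem tally_model (hadd : ∀ a b, emb (a + b) = emb a * emb b) (hinj : Function.Injective emb)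
    (hcov : ∀ χ, χ ^ 4 = 1 → ∃ a, emb a = χ) {P : ℕ} (hP : 2 ≤ P) (ex : A → ℕ)
    (hex : ∀ a, (emb a).conductor = P ^ ex a) (S : Shape) (hk : S.k ∣ 4) (hk' : S.k' ∣ 4)
    (e : ℕ) : tally S N (P ^ e) = (model S ex e).card := by
  have h0 : emb 0 = 1 := by
    have h := hadd 0 0
    rwa [add_zero, left_eq_mul] at h
  have hsmul : ∀ (j : ℕ) a, emb (j • a) = emb a ^ j := fun j a => by
    induction j with
    | zero => rw [zero_smul, h0, pow_zero]
    | succ j ih => rw [succ_nsmul, hadd, ih, pow_succ]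
  have hD : ∀ v : A × A, prodCond S (emb v.1, emb v.2) =
      P ^ ∑ w ∈ S.W, ex (w.1 • v.1 + w.2 • v.2) := fun v => by
    rw [prodCond, ← Finset.prod_pow_eq_pow_sum]
    refine Finset.prod_congr rfl fun w _ => ?_
    rw [← hex, hadd, hsmul, hsmul]
  have hz : ∀ (j : ℕ) a, emb a ^ j = 1 ↔ j • a = 0 := fun j a => by
    rw [← hsmul, ← h0, hinj.eq_iff]
  have hiff : ∀ v : A × A, (Valid S (emb v.1, emb v.2) ∧ prodCond S (emb v.1, emb v.2) = P ^ e) ↔
      v ∈ model S ex e := fun v => by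
    simp only [Valid, hD, (Nat.pow_right_injective hP).eq_iff, hz, model, Finset.mem_filter,
      Finset.mem_univ, true_and, and_assoc]
  rw [← Nat.card_eq_finsetCard]
  refine (Nat.card_congr (Equiv.ofBijective
    (fun v : model S ex e => (⟨(emb v.1.1, emb v.1.2), (hiff v.1).mpr v.2⟩ :
      {v : DirichletCharacter ℂ N × DirichletCharacter ℂ N // Valid S v ∧ prodCond S v = P ^ e}))
    ⟨fun v v' h => ?_, fun v => ?_⟩)).symm
  · have h1 := congrArg Subtype.val h
    exact Subtype.ext (Prod.ext (hinj (congrArg Prod.fst h1)) (hinj (congrArg Prod.snd h1)))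
  · obtain ⟨⟨χ, ψ⟩, hv, hd⟩ := v
    obtain ⟨a, rfl⟩ := hcov χ (orderOf_dvd_iff_pow_eq_one.mp
      ((orderOf_dvd_iff_pow_eq_one.mpr hv.1).trans hk))
    obtain ⟨b, rfl⟩ := hcov ψ (orderOf_dvd_iff_pow_eq_one.mp
      ((orderOf_dvd_iff_pow_eq_one.mpr hv.2).trans hk'))
    exact ⟨⟨(a, b), (hiff (a, b)).mp ⟨hv, hd⟩⟩, rfl⟩

end Model

/-- Everything killed by four comes from a lower level. -/
theorem tally_lower {N m d : ℕ} [NeZero N] (h : m ∣ N)
    (hcov : ∀ χ : DirichletCharacter ℂ N, χ ^ 4 = 1 → χ.conductor ∣ m) (S : Shape) (hk : S.k ∣ 4)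
    (hk' : S.k' ∣ 4) : tally S N d = tally S m d := by
  refine (Nat.card_congr (Equiv.ofBijective
    (fun v : {v : DirichletCharacter ℂ m × DirichletCharacter ℂ m //
        Valid S v ∧ prodCond S v = d} =>
      (⟨liftPair h v.1, (valid_liftPair S h v.1).mpr v.2.1,
        (prodCond_liftPair S h v.1).trans v.2.2⟩ :
        {v : DirichletCharacter ℂ N × DirichletCharacter ℂ N // Valid S v ∧ prodCond S v = d}))
    ⟨fun _ _ e => Subtype.ext (liftPair_injective h (congrArg Subtype.val e)), fun v => ?_⟩)).symm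
  obtain ⟨⟨χ, ψ⟩, hv, hD⟩ := v
  obtain ⟨χ₀, rfl⟩ := exists_changeLevel h (hcov χ (orderOf_dvd_iff_pow_eq_one.mp
    ((orderOf_dvd_iff_pow_eq_one.mpr hv.1).trans hk)))
  obtain ⟨ψ₀, rfl⟩ := exists_changeLevel h (hcov ψ (orderOf_dvd_iff_pow_eq_one.mp
    ((orderOf_dvd_iff_pow_eq_one.mpr hv.2).trans hk')))
  exact ⟨⟨(χ₀, ψ₀), (valid_liftPair S h _).mp hv,
    (prodCond_liftPair S h (χ₀, ψ₀)).symm.trans hD⟩, rfl⟩

theorem conductor_dvd_of_ker {N m : ℕ} [NeZero N] (h : m ∣ N) {χ : DirichletCharacter ℂ N}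
    (hk : ∀ u : (ZMod N)ˣ, ((u : ZMod N).val : ZMod m) = 1 → χ (u : ZMod N) = 1) :
    χ.conductor ∣ m := by
  refine (mem_conductorSet_iff_conductor_dvd χ h).mp
    ((factorsThrough_iff_ker_unitsMap h).mpr fun u hu => ?_)
  rw [MonoidHom.mem_ker, Units.ext_iff, MulChar.coe_toUnitHom, Units.val_one]
  refine hk u ?_
  rw [MonoidHom.mem_ker, Units.ext_iff, ZMod.unitsMap_val, Units.val_one] at hu
  rwa [ZMod.natCast_val]

/-! ### Odd primes -/

section Odd

variable {p : ℕ}

theorem conductor_dvd_prime (hp : p.Prime) (hp2 : p ≠ 2) (e : ℕ)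
    {χ : DirichletCharacter ℂ (p ^ (e + 1))} (hχ : χ ^ 4 = 1) : χ.conductor ∣ p := by
  haveI : NeZero (p ^ (e + 1)) := ⟨pow_ne_zero _ hp.ne_zero⟩
  refine conductor_dvd_of_ker (dvd_pow_self p e.succ_ne_zero) fun u hu => ?_
  have hd : ((p : ℕ) : ℤ) ∣ ((u : ZMod (p ^ (e + 1))).val : ℤ) - 1 := by
    rw [← ZMod.intCast_zmod_eq_zero_iff_dvd]
    push_cast
    rw [hu, sub_self]
  have hpow : (u : ZMod (p ^ (e + 1))) ^ p ^ e = 1 := by
    have h := dvd_sub_pow_of_dvd_sub (p := p) hd e
    rw [one_pow, ← Nat.cast_pow p (e + 1), ← ZMod.intCast_zmod_eq_zero_iff_dvd] at h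
    push_cast at h
    rw [ZMod.natCast_zmod_val, sub_eq_zero] at h
    exact h
  have h4 : χ (u : ZMod (p ^ (e + 1))) ^ 4 = 1 := by
    rw [← MulChar.pow_apply_coe, hχ, MulChar.one_apply_coe]
  have hp4 : χ (u : ZMod (p ^ (e + 1))) ^ p ^ e = 1 := by rw [← map_pow, hpow, map_one]
  have hco : Nat.Coprime 4 (p ^ e) := by
    refine Nat.Coprime.pow_right _ ?_
    rw [show (4 : ℕ) = 2 ^ 2 from rfl]
    exact Nat.Coprime.pow_left _ ((Nat.coprime_primes Nat.prime_two hp).mpr (Ne.symm hp2))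
  have h := pow_gcd_eq_one.mpr ⟨h4, hp4⟩
  rwa [hco.gcd_eq_one, pow_one] at h

/-- The group of characters killed by four mod an odd prime. -/
theorem exists_model_prime (hp : p.Prime) (hp2 : p ≠ 2) [NeZero p] :
    ∃ χ₀ : DirichletCharacter ℂ p, orderOf χ₀ = (if p % 4 = 1 then 4 else 2) ∧
      ∀ χ : DirichletCharacter ℂ p, χ ^ 4 = 1 → ∃ j : ℕ, χ₀ ^ j = χ := by
  haveI : Fact p.Prime := ⟨hp⟩
  obtain ⟨E⟩ := DirichletCharacter.mulEquiv_units ℂ p
  haveI : IsCyclic (DirichletCharacter ℂ p) := isCyclic_of_surjective E.symm E.symm.surjective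
  obtain ⟨γ, hγ⟩ := IsCyclic.exists_ofOrder_eq_natCard (α := DirichletCharacter ℂ p)
  rw [card_eq_totient_of_hasEnoughRootsOfUnity, Nat.totient_prime hp] at hγ
  set g := if p % 4 = 1 then 4 else 2 with hg
  have hodd : p % 2 = 1 := Nat.odd_iff.mp (hp.odd_of_ne_two hp2)
  obtain ⟨q, hq⟩ : g ∣ p - 1 := by
    rw [hg]; split_ifs <;> omega
  have hq0 : 0 < q := Nat.pos_of_ne_zero fun h => by
    rw [h, mul_zero] at hq
    have := hp.two_le
    omega
  have hord : orderOf (γ ^ q) = g := by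
    rw [orderOf_pow, hγ, hq, Nat.gcd_eq_right (dvd_mul_left q g), Nat.mul_div_cancel _ hq0]
  refine ⟨γ ^ q, hord, fun χ hχ => ?_⟩
  obtain ⟨i, rfl⟩ := mem_powers_iff_mem_zpowers.mpr
    (by
      have h : Subgroup.zpowers γ = ⊤ := Subgroup.eq_top_of_card_eq _ (by
        rw [Nat.card_zpowers, hγ, card_eq_totient_of_hasEnoughRootsOfUnity, Nat.totient_prime hp])
      rw [h]; trivial : χ ∈ Subgroup.zpowers γ)
  rw [← pow_mul, ← orderOf_dvd_iff_pow_eq_one, hγ, hq] at hχ
  have hdvd : q ∣ i := by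
    by_cases h1 : p % 4 = 1
    · rw [hg, if_pos h1, mul_comm i] at hχ
      exact (Nat.mul_dvd_mul_iff_left four_pos).mp hχ
    · rw [hg, if_neg h1] at hχ hq
      have hco : Nat.Coprime q 2 := (Nat.odd_iff.mpr (by omega)).coprime_two_right
      rw [show i * 4 = 2 * (2 * i) by ring] at hχ
      exact hco.dvd_of_dvd_mul_left ((Nat.mul_dvd_mul_iff_left two_pos).mp hχ)
  obtain ⟨j, rfl⟩ := hdvd
  exact ⟨j, (pow_mul γ q j).symm⟩

/-- The exponent of the conductor in the model. -/
def primeExp {g : ℕ} (a : ZMod g) : ℕ := if a = 0 then 0 else 1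

theorem tally_prime_model (hp : p.Prime) (hp2 : p ≠ 2) [NeZero p] {g : ℕ} [NeZero g]
    (hg : g = if p % 4 = 1 then 4 else 2) (S : Shape) (hk : S.k ∣ 4) (hk' : S.k' ∣ 4) (e : ℕ) :
    tally S (p ^ (e + 1)) (p ^ (e + 1)) = (model S (primeExp (g := g)) (e + 1)).card := by
  haveI : NeZero (p ^ (e + 1)) := ⟨pow_ne_zero _ hp.ne_zero⟩
  obtain ⟨χ₀, hord, hcov⟩ := exists_model_prime hp hp2
  rw [← hg] at hord
  rw [tally_lower (dvd_pow_self p e.succ_ne_zero) (fun _ h => conductor_dvd_prime hp hp2 e h) S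
    hk hk']
  refine tally_model (fun a : ZMod g => χ₀ ^ a.val) (fun a b => ?_) (fun a b h => ?_)
    (fun χ hχ => ?_) hp.two_le _ (fun a => ?_) S hk hk' _
  · rw [← pow_add, pow_eq_pow_iff_modEq, hord, ZMod.val_add]
    exact Nat.mod_modEq _ _
  · have h' := pow_eq_pow_iff_modEq.mp h
    rw [hord] at h'
    exact ZMod.val_injective g (h'.eq_of_lt_of_lt a.val_lt b.val_lt)
  · obtain ⟨j, rfl⟩ := hcov χ hχ
    refine ⟨(j : ZMod g), ?_⟩
    rw [ZMod.val_natCast, ← hord, pow_mod_orderOf]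
  · show (χ₀ ^ a.val).conductor = _
    unfold primeExp
    split_ifs with ha
    · rw [ha, ZMod.val_zero, pow_zero, conductor_one, pow_zero]
    · rw [pow_one]
      refine (hp.eq_one_or_self_of_dvd _ (conductor_dvd_level _)).resolve_left fun h1 => ha ?_
      have h2 := eq_one_iff_conductor_eq_one.mpr h1
      rw [← orderOf_dvd_iff_pow_eq_one, hord] at h2
      rw [← ZMod.val_eq_zero]
      exact Nat.eq_zero_of_dvd_of_lt h2 a.val_lt

end Odd

/-! ### The prime two -/

section Two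

/-- Fourth roots of unity. -/
def iUnit : ℂˣ := Units.mk0 Complex.I Complex.I_ne_zero

theorem orderOf_iUnit : orderOf iUnit = 4 := by
  have h : iUnit ^ 2 ^ 2 = 1 := Units.ext (by simp [iUnit, Complex.I_pow_four])
  refine orderOf_eq_prime_pow (p := 2) (n := 1) ?_ h
  intro hc
  have := congrArg Units.val hc
  simp only [iUnit, Units.val_pow_eq_pow_val, Units.val_mk0, Units.val_one, pow_one,
    Complex.I_sq] at this
  norm_num at this

/-- The logarithm on the units mod `16` with respect to `-1` and `5`. -/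
def log16 (u : ZMod 16) : ZMod 2 × ZMod 4 :=
  match u.val with
  | 5 => (0, 1)
  | 9 => (0, 2)
  | 13 => (0, 3)
  | 15 => (1, 0)
  | 11 => (1, 1)
  | 7 => (1, 2)
  | 3 => (1, 3)
  | _ => (0, 0)

/-- The pairing of `ZMod 2 × ZMod 4` with itself. -/
def pair16 (a b : ZMod 2 × ZMod 4) : ZMod 4 :=
  (if a.1 = 1 ∧ b.1 = 1 then 2 else 0) + a.2 * b.2

theorem log16_mul : ∀ (u v : (ZMod 16)ˣ) (a : ZMod 2 × ZMod 4),
    pair16 a (log16 ((u * v : (ZMod 16)ˣ) : ZMod 16)) =
      pair16 a (log16 (u : ZMod 16)) + pair16 a (log16 (v : ZMod 16)) := by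
  decide +kernel

/-- The characters mod `16`. -/
def char16 (a : ZMod 2 × ZMod 4) : DirichletCharacter ℂ 16 :=
  MulChar.ofUnitHom
    { toFun := fun u => iUnit ^ (pair16 a (log16 (u : ZMod 16))).val
      map_one' := by
        rw [show pair16 a (log16 ((1 : (ZMod 16)ˣ) : ZMod 16)) = 0 by revert a; decide +kernel,
          ZMod.val_zero, pow_zero]
      map_mul' := fun u v => by
        rw [← pow_add, pow_eq_pow_iff_modEq, orderOf_iUnit, log16_mul, ZMod.val_add]
        exact Nat.mod_modEq _ _ }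

theorem char16_apply (a : ZMod 2 × ZMod 4) (u : (ZMod 16)ˣ) :
    char16 a (u : ZMod 16) = ((iUnit ^ (pair16 a (log16 (u : ZMod 16))).val : ℂˣ) : ℂ) := by
  rw [char16, MulChar.ofUnitHom_coe]
  rfl

theorem char16_add (a b : ZMod 2 × ZMod 4) : char16 (a + b) = char16 a * char16 b := by
  refine MulChar.ext fun u => ?_
  rw [MulChar.mul_apply, char16_apply, char16_apply, char16_apply, ← Units.val_mul, ← pow_add,
    Units.val_inj, pow_eq_pow_iff_modEq, orderOf_iUnit,
    show pair16 (a + b) (log16 (u : ZMod 16)) =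
      pair16 a (log16 (u : ZMod 16)) + pair16 b (log16 (u : ZMod 16)) by
        revert a b u; decide +kernel, ZMod.val_add]
  exact Nat.mod_modEq _ _

theorem iUnit_pow_eq_one {j : ZMod 4} : iUnit ^ j.val = 1 ↔ j = 0 := by
  rw [← orderOf_dvd_iff_pow_eq_one, orderOf_iUnit, ← ZMod.val_eq_zero]
  exact ⟨fun h => Nat.eq_zero_of_dvd_of_lt h j.val_lt, fun h => h ▸ dvd_zero 4⟩

/-- The exponents of the conductors mod `16`. -/
def twoExp16 (a : ZMod 2 × ZMod 4) : ℕ :=
  if a.2 = 1 ∨ a.2 = 3 then 4 else if a.2 = 2 then 3 else if a.1 = 1 then 2 else 0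

theorem char16_conductor_dvd (a : ZMod 2 × ZMod 4) {j : ℕ} (hj : j ≤ 4) :
    (char16 a).conductor ∣ 2 ^ j ↔ twoExp16 a ≤ j := by
  have hd : 2 ^ j ∣ 16 := by rw [show (16 : ℕ) = 2 ^ 4 from rfl]; exact pow_dvd_pow 2 hj
  rw [← mem_conductorSet_iff_conductor_dvd _ hd, mem_conductorSet_iff,
    factorsThrough_iff_ker_unitsMap hd]
  have key : (∀ u : (ZMod 16)ˣ, (u : ZMod 16).val % 2 ^ j = 1 % 2 ^ j →
      pair16 a (log16 (u : ZMod 16)) = 0) ↔ twoExp16 a ≤ j := by
    revert a
    interval_cases j <;> decide +kernel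
  rw [← key]
  refine ⟨fun h u hu => iUnit_pow_eq_one.mp (Units.ext ?_), fun h u hu => ?_⟩
  · have h1 : (char16 a).toUnitHom u = 1 := h (by
      rw [MonoidHom.mem_ker, Units.ext_iff, ZMod.unitsMap_val, Units.val_one, ← ZMod.natCast_val,
        ← Nat.cast_one, ZMod.natCast_eq_natCast_iff']
      exact hu)
    rw [← char16_apply, ← MulChar.coe_toUnitHom, h1]
  · rw [MonoidHom.mem_ker, Units.ext_iff, MulChar.coe_toUnitHom, char16_apply, h u, ZMod.val_zero,
      pow_zero]
    rw [MonoidHom.mem_ker, Units.ext_iff, ZMod.unitsMap_val, Units.val_one, ← ZMod.natCast_val,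
      ← Nat.cast_one, ZMod.natCast_eq_natCast_iff'] at hu
    exact hu

theorem twoExp16_le : ∀ a, twoExp16 a ≤ 4 := by decide +kernel

theorem char16_conductor (a : ZMod 2 × ZMod 4) : (char16 a).conductor = 2 ^ twoExp16 a := by
  obtain ⟨i, hi, he⟩ := (Nat.dvd_prime_pow Nat.prime_two).mp
    (show (char16 a).conductor ∣ 2 ^ 4 from conductor_dvd_level _)
  have h1 : twoExp16 a ≤ i := (char16_conductor_dvd a hi).mp (he ▸ dvd_rfl)
  have h2 := (char16_conductor_dvd a (twoExp16_le a)).mpr le_rfl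
  rw [he, Nat.pow_dvd_pow_iff_le_right one_lt_two] at h2
  rw [he, le_antisymm h2 h1]

theorem char16_zero : char16 0 = 1 := eq_one_iff_conductor_eq_one.mpr (by
  rw [char16_conductor, show twoExp16 0 = 0 by decide +kernel, pow_zero])

theorem char16_injective : Function.Injective char16 := by
  intro a b h
  have h' : (char16 (a - b)).conductor = 1 := by
    have e := char16_add (a - b) b
    rw [sub_add_cancel, h] at e
    rw [right_eq_mul] at e
    rw [e, conductor_one]
  rw [char16_conductor, Nat.pow_eq_one] at h'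
  rw [← sub_eq_zero]
  revert h'
  generalize a - b = c
  revert c
  decide +kernel

theorem char16_surjective : Function.Surjective char16 := by
  refine ((Nat.bijective_iff_injective_and_card char16).mpr ⟨char16_injective, ?_⟩).2
  rw [card_eq_totient_of_hasEnoughRootsOfUnity, Nat.card_eq_fintype_card]
  decide +kernel

/-- Units `≡ 1 (mod 16)` are fourth powers. -/
theorem exists_fourth_root (e : ℕ) (u : ℤ) (hu : (16 : ℤ) ∣ u - 1) :
    ∃ x : ℤ, Odd x ∧ (2 : ℤ) ^ (e + 4) ∣ x ^ 4 - u := by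
  induction e with
  | zero => exact ⟨1, odd_one, by rw [one_pow, zero_add, ← neg_sub, dvd_neg]; norm_num; exact hu⟩
  | succ e ih =>
    obtain ⟨x, hx, c, hc⟩ := ih
    obtain ⟨y, hy⟩ := hx
    refine ⟨x + 2 ^ (e + 2) * c, ⟨y + 2 ^ (e + 1) * c, by rw [hy]; ring⟩, ?_⟩
    refine ⟨c * (4 * y ^ 3 + 6 * y ^ 2 + 3 * y + 1) + 3 * x ^ 2 * c ^ 2 * 2 ^ e +
      x * c ^ 3 * 2 ^ (2 * e + 3) + c ^ 4 * 2 ^ (3 * e + 3), ?_⟩
    linear_combination hc +
      (2 : ℤ) ^ (e + 4) * c * (x ^ 2 + x * (2 * y + 1) + (2 * y + 1) ^ 2) * hy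

theorem conductor_dvd_sixteen (e : ℕ) {χ : DirichletCharacter ℂ (2 ^ (e + 4))} (hχ : χ ^ 4 = 1) :
    χ.conductor ∣ 16 := by
  refine conductor_dvd_of_ker ⟨2 ^ e, by rw [pow_add, mul_comm]; norm_num⟩ fun u hu => ?_
  have hd : (16 : ℤ) ∣ ((u : ZMod (2 ^ (e + 4))).val : ℤ) - 1 := by
    rw [show (16 : ℤ) = ((16 : ℕ) : ℤ) from rfl, ← ZMod.intCast_zmod_eq_zero_iff_dvd]
    push_cast
    rw [hu, sub_self]
  obtain ⟨x, -, hx⟩ := exists_fourth_root e _ hd
  have hx' : ((x : ℤ) : ZMod (2 ^ (e + 4))) ^ 4 = (u : ZMod (2 ^ (e + 4))) := by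
    rw [show ((2 : ℤ) ^ (e + 4)) = ((2 ^ (e + 4) : ℕ) : ℤ) by push_cast; rfl,
      ← ZMod.intCast_zmod_eq_zero_iff_dvd] at hx
    push_cast at hx
    rwa [ZMod.natCast_zmod_val, sub_eq_zero] at hx
  have hxu : IsUnit ((x : ℤ) : ZMod (2 ^ (e + 4))) :=
    (isUnit_pow_iff four_ne_zero).mp (hx' ▸ u.isUnit)
  rw [← hx', map_pow, ← MulChar.pow_apply' χ four_ne_zero, hχ, MulChar.one_apply hxu]

theorem tally_two_model (S : Shape) (hk : S.k ∣ 4) (hk' : S.k' ∣ 4) (e : ℕ) :
    tally S (2 ^ e) (2 ^ e) = (model S twoExp16 e).card := by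
  rw [← tally_model char16 char16_add char16_injective (fun χ _ => char16_surjective χ) le_rfl
    twoExp16 char16_conductor S hk hk' e]
  rcases le_or_gt e 4 with h | h
  · exact (tally_eq S (show 2 ^ e ∣ 16 by rw [show (16 : ℕ) = 2 ^ 4 from rfl]
                                          exact pow_dvd_pow 2 h)).symm
  · obtain ⟨i, rfl⟩ : ∃ i, e = i + 4 := ⟨e - 4, by omega⟩
    exact tally_lower ⟨2 ^ i, by rw [pow_add, mul_comm]; norm_num⟩
      (fun _ hχ => conductor_dvd_sixteen i hχ) S hk hk'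

end Two

/-! ### The values -/

theorem cast_eq_ofNat {n k : ℕ} [k.AtLeastTwo] (h : n = OfNat.ofNat k) :
    (n : ℝ) = OfNat.ofNat k := by rw [h, Nat.cast_ofNat]

theorem card_model_big (S : Shape) {A : Type} [AddCommGroup A] [Fintype A] [DecidableEq A]
    (ex : A → ℕ) (B : ℕ) (hB : ∀ v : A × A, ∑ w ∈ S.W, ex (w.1 • v.1 + w.2 • v.2) < B) {e : ℕ}
    (he : B ≤ e) : (model S ex e).card = 0 := by
  rw [Finset.card_eq_zero, model, Finset.filter_eq_empty_iff]
  exact fun v _ h => absurd (hB v) (by omega)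

theorem cnt_two_quad (e : ℕ) :
    cnt quad (2 ^ e) = if e = 0 ∨ e = 2 then 1 else if e = 3 then 2 else 0 := by
  rw [cnt_apply quad (pow_ne_zero e two_ne_zero), tally_two_model quad (by decide) (by decide)]
  rcases lt_or_ge e 5 with h | h
  · interval_cases e <;> norm_num <;>
        first | decide +kernel | (refine cast_eq_ofNat ?_; decide +kernel)
  · rw [card_model_big quad twoExp16 5 (by decide +kernel) h, if_neg (by omega), if_neg (by omega),
      Nat.cast_zero]

theorem cnt_two_cyc (e : ℕ) : cnt cyc (2 ^ e) =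
    if e = 0 ∨ e = 4 then 1 else if e = 6 then 2 else if e = 11 then 4 else 0 := by
  rw [cnt_apply cyc (pow_ne_zero e two_ne_zero), tally_two_model cyc (by decide) (by decide)]
  rcases lt_or_ge e 12 with h | h
  · interval_cases e <;> norm_num <;>
        first | decide +kernel | (refine cast_eq_ofNat ?_; decide +kernel)
  · rw [card_model_big cyc twoExp16 12 (by decide +kernel) h, if_neg (by omega), if_neg (by omega),
      if_neg (by omega), Nat.cast_zero]

theorem cnt_two_klein (e : ℕ) : cnt klein (2 ^ e) =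
    if e = 0 then 1 else if e = 4 then 3 else if e = 6 ∨ e = 8 then 6 else 0 := by
  rw [cnt_apply klein (pow_ne_zero e two_ne_zero), tally_two_model klein (by decide) (by decide)]
  rcases lt_or_ge e 13 with h | h
  · interval_cases e <;> norm_num <;>
        first | decide +kernel | (refine cast_eq_ofNat ?_; decide +kernel)
  · rw [card_model_big klein twoExp16 13 (by decide +kernel) h, if_neg (by omega),
      if_neg (by omega), if_neg (by omega), Nat.cast_zero]

theorem cnt_odd_quad {p : ℕ} (hp : p.Prime) (hp2 : p ≠ 2) (e : ℕ) :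
    cnt quad (p ^ (e + 1)) = if e = 0 then 1 else 0 := by
  haveI : NeZero p := ⟨hp.ne_zero⟩
  rw [cnt_apply quad (pow_ne_zero _ hp.ne_zero)]
  by_cases h1 : p % 4 = 1
  · rw [tally_prime_model hp hp2 (g := 4) (if_pos h1).symm quad (by decide) (by decide) e]
    rcases lt_or_ge e 2 with h | h
    · interval_cases e <;> norm_num
      decide +kernel
    · rw [card_model_big quad (primeExp (g := 4)) 2 (by decide +kernel) (by omega),
        if_neg (by omega), Nat.cast_zero]
  · rw [tally_prime_model hp hp2 (g := 2) (if_neg h1).symm quad (by decide) (by decide) e]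
    rcases lt_or_ge e 2 with h | h
    · interval_cases e <;> norm_num
      decide +kernel
    · rw [card_model_big quad (primeExp (g := 2)) 2 (by decide +kernel) (by omega),
        if_neg (by omega), Nat.cast_zero]

theorem cnt_odd_cyc {p : ℕ} (hp : p.Prime) (hp2 : p ≠ 2) (e : ℕ) :
    cnt cyc (p ^ (e + 1)) = if e = 1 then 1 else if e = 2 ∧ p % 4 = 1 then 2 else 0 := by
  haveI : NeZero p := ⟨hp.ne_zero⟩
  rw [cnt_apply cyc (pow_ne_zero _ hp.ne_zero)]
  by_cases h1 : p % 4 = 1
  · rw [tally_prime_model hp hp2 (g := 4) (if_pos h1).symm cyc (by decide) (by decide) e]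
    rcases lt_or_ge e 4 with h | h
    · interval_cases e <;> norm_num [h1] <;>
        first | decide +kernel | (refine cast_eq_ofNat ?_; decide +kernel)
    · rw [card_model_big cyc (primeExp (g := 4)) 4 (by decide +kernel) (by omega),
        if_neg (by omega), if_neg (by omega), Nat.cast_zero]
  · rw [tally_prime_model hp hp2 (g := 2) (if_neg h1).symm cyc (by decide) (by decide) e]
    rcases lt_or_ge e 4 with h | h
    · interval_cases e <;> norm_num [h1]
      decide +kernel
    · rw [card_model_big cyc (primeExp (g := 2)) 4 (by decide +kernel) (by omega),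
        if_neg (by omega), if_neg (by omega), Nat.cast_zero]

theorem cnt_odd_klein {p : ℕ} (hp : p.Prime) (hp2 : p ≠ 2) (e : ℕ) :
    cnt klein (p ^ (e + 1)) = if e = 1 then 3 else 0 := by
  haveI : NeZero p := ⟨hp.ne_zero⟩
  rw [cnt_apply klein (pow_ne_zero _ hp.ne_zero)]
  by_cases h1 : p % 4 = 1
  · rw [tally_prime_model hp hp2 (g := 4) (if_pos h1).symm klein (by decide) (by decide) e]
    rcases lt_or_ge e 4 with h | h
    · interval_cases e <;> norm_num
      refine cast_eq_ofNat ?_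
      decide +kernel
    · rw [card_model_big klein (primeExp (g := 4)) 4 (by decide +kernel) (by omega),
        if_neg (by omega), Nat.cast_zero]
  · rw [tally_prime_model hp hp2 (g := 2) (if_neg h1).symm klein (by decide) (by decide) e]
    rcases lt_or_ge e 4 with h | h
    · interval_cases e <;> norm_num
      refine cast_eq_ofNat ?_
      decide +kernel
    · rw [card_model_big klein (primeExp (g := 2)) 4 (by decide +kernel) (by omega),
        if_neg (by omega), Nat.cast_zero]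

end FA.AbelianQuartic
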