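import Fermat.Agent.AbelianQuartic.Convolution
import Fermat.Agent.AbelianQuartic.Local
import Fermat.Agent.CubicCount.MeanValue
import Fermat.Agent.Root.SummaryPiltzDivisor

/-!
# The mean values of the three counts

The count of quadratic characters is `h * ζ`, those of cyclic and biquadratic shapes are
`h * ζ` and `h * ζ ^ 3` carried to the squares, each time with `h` small at the low powers of the
odd primes.
-/

set_option autoImplicit false
set_option linter.style.haveILetI false

noncomputable section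

open ArithmeticFunction Filter Topology Finset
open scoped Classical ArithmeticFunction.Moebius ArithmeticFunction.zeta Real Nat

namespace FA.AbelianQuartic

/-- `d_k` with real values. -/
def divFun (k : ℕ) : ArithmeticFunction ℝ :=
  ⟨fun n => (((ζ ^ k : ArithmeticFunction ℕ) n : ℕ) : ℝ), by simp⟩

theorem divFun_eq (k : ℕ) : divFun k = (ζ : ArithmeticFunction ℝ) ^ k := by
  induction k with
  | zero =>
    ext n
    show (((ζ ^ 0 : ArithmeticFunction ℕ) n : ℕ) : ℝ) = _
    rw [pow_zero, pow_zero, one_apply, one_apply]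
    split_ifs <;> simp
  | succ k ih =>
    ext n
    show (((ζ ^ (k + 1) : ArithmeticFunction ℕ) n : ℕ) : ℝ) = _
    rw [pow_succ, pow_succ, ← ih, mul_apply, mul_apply, Nat.cast_sum]
    simp only [Nat.cast_mul]
    rfl

theorem divFun_nonneg (k n : ℕ) : 0 ≤ divFun k n := Nat.cast_nonneg _

/-- **Piltz, the leading term.** -/
theorem divFun_mean {k : ℕ} (hk : 1 ≤ k) :
    Tendsto (fun x => partialSum (divFun k) x / (x ^ (1 : ℝ) * Real.log x ^ (k - 1))) atTop
      (𝓝 (1 / (k - 1)!)) ∧
    ∃ C : ℝ, ∀ x : ℝ, 1 ≤ x →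
      |partialSum (divFun k) x| ≤ C * x ^ (1 : ℝ) * (1 + Real.log x) ^ (k - 1) := by
  obtain ⟨P, hd, hl, C, hC⟩ := FA.Summary.piltz_divisor_problem hk
  have hsum : ∀ x : ℝ, partialSum (divFun k) x =
      ∑ n ∈ Finset.Icc 1 ⌊x⌋₊, (((ζ ^ k : ArithmeticFunction ℕ) n : ℕ) : ℝ) := fun x => by
    rw [partialSum]
    exact Finset.sum_congr (by ext n; simp [Finset.mem_Ioc, Finset.mem_Icc]; omega) fun _ _ => rfl
  simp only [← hsum] at hC
  have hP : P ≠ 0 := fun h => by
    rw [h, Polynomial.leadingCoeff_zero] at hl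
    exact one_div_ne_zero (Nat.cast_ne_zero.mpr (Nat.factorial_ne_zero _)) hl.symm
  constructor
  · have hev : Tendsto (fun x => P.eval (Real.log x) / Real.log x ^ (k - 1)) atTop
        (𝓝 (1 / (k - 1)! : ℝ)) := by
      have h1 := ((P.isEquivalent_atTop_lead).comp_tendsto Real.tendsto_log_atTop)
      rw [hd, hl] at h1
      obtain ⟨u, hu, hue⟩ := h1.exists_eq_mul
      have h2 := hu.mul_const (1 / (k - 1)! : ℝ)
      rw [one_mul] at h2
      refine h2.congr' ?_
      filter_upwards [hue, eventually_gt_atTop 1] with x hx hx1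
      simp only [Function.comp, Pi.mul_apply] at hx ⊢
      rw [hx, ← mul_assoc, mul_div_assoc, div_self (pow_ne_zero _ (Real.log_pos hx1).ne'), mul_one]
    have herr : Tendsto (fun x => (partialSum (divFun k) x - x * P.eval (Real.log x)) /
        (x ^ (1 : ℝ) * Real.log x ^ (k - 1))) atTop (𝓝 0) := by
      set δ := 1 / (32 * (k : ℝ))
      have hδ : 0 < δ := by
        have : (0 : ℝ) < k := Nat.cast_pos.mpr hk
        positivity
      refine squeeze_zero_norm' (a := fun x => C * x ^ (-δ)) ?_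
        (by simpa using (tendsto_rpow_neg_atTop hδ).const_mul C)
      filter_upwards [eventually_ge_atTop (Real.exp 1), eventually_ge_atTop 2] with x hx hx2
      have hx0 : 0 < x := by linarith
      have hL : 1 ≤ Real.log x ^ (k - 1) :=
        one_le_pow₀ (by rwa [Real.le_log_iff_exp_le hx0])
      rw [Real.norm_eq_abs, abs_div, Real.rpow_one, abs_of_pos (mul_pos hx0 (by linarith)),
        div_le_iff₀ (mul_pos hx0 (by linarith))]
      refine (hC x hx2).trans ?_
      have e : x ^ (1 - δ) = x ^ (-δ) * x := by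
        rw [sub_eq_neg_add, Real.rpow_add hx0, Real.rpow_one]
      rw [e]
      have h0 : 0 ≤ C * (x ^ (-δ) * x) := by
        refine le_trans (abs_nonneg _) ((hC x hx2).trans_eq ?_)
        rw [e]
      calc C * (x ^ (-δ) * x) ≤ C * (x ^ (-δ) * x) * Real.log x ^ (k - 1) :=
            le_mul_of_one_le_right h0 hL
        _ = _ := by ring
    refine (herr.add hev).congr' ?_ |>.trans (by rw [zero_add])
    filter_upwards [eventually_gt_atTop 1] with x hx
    have hx0 : x ≠ 0 := by linarith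
    rw [Real.rpow_one, sub_div, mul_div_mul_left _ _ hx0]
    ring
  · refine ⟨(∑ i ∈ Finset.range k, |P.coeff i|) + |C| + 1, fun x hx => ?_⟩
    have hL : 1 ≤ (1 + Real.log x) ^ (k - 1) :=
      one_le_pow₀ (le_add_of_nonneg_right (Real.log_nonneg hx))
    have hS : 0 ≤ ∑ i ∈ Finset.range k, |P.coeff i| := Finset.sum_nonneg fun _ _ => abs_nonneg _
    rw [Real.rpow_one]
    rcases lt_or_ge x 2 with hx2 | hx2
    · have hf : ⌊x⌋₊ = 1 := Nat.floor_eq_iff (by linarith) |>.mpr ⟨by simpa using hx, by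
        norm_num; linarith⟩
      have h1 : divFun k 1 = 1 := by
        rw [divFun_eq, (isMultiplicative_zeta.natCast).pow.map_one]
      rw [partialSum, hf, show Finset.Ioc 0 1 = {1} from rfl, Finset.sum_singleton, h1, abs_one]
      calc (1 : ℝ) = 1 * 1 * 1 := by ring
        _ ≤ _ := by gcongr; linarith [abs_nonneg C]
    · have hev : |P.eval (Real.log x)| ≤
          (∑ i ∈ Finset.range k, |P.coeff i|) * (1 + Real.log x) ^ (k - 1) := by
        rw [Polynomial.eval_eq_sum_range' (n := k) (by omega), Finset.sum_mul]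
        refine (Finset.abs_sum_le_sum_abs _ _).trans (Finset.sum_le_sum fun i hi => ?_)
        rw [Finset.mem_range] at hi
        rw [abs_mul, abs_pow]
        refine mul_le_mul_of_nonneg_left ?_ (abs_nonneg _)
        have hl0 := Real.log_nonneg hx
        rw [abs_of_nonneg hl0]
        exact (pow_le_pow_left₀ hl0 (by linarith) i).trans
          (pow_le_pow_right₀ (by linarith) (by omega))
      have hpow : x ^ (1 - 1 / (32 * (k : ℝ))) ≤ x := by
        nth_rewrite 2 [← Real.rpow_one x]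
        exact Real.rpow_le_rpow_of_exponent_le hx (by
          have : (0 : ℝ) ≤ 1 / (32 * (k : ℝ)) := by positivity
          linarith)
      have hCx : C * x ^ (1 - 1 / (32 * (k : ℝ))) ≤ |C| * x * (1 + Real.log x) ^ (k - 1) :=
        ((mul_le_mul_of_nonneg_right (le_abs_self C) (Real.rpow_nonneg (by linarith) _)).trans
          (mul_le_mul_of_nonneg_left hpow (abs_nonneg C))).trans
          (le_mul_of_one_le_right (by positivity) hL)
      have hmain : |x * P.eval (Real.log x)| ≤
          (∑ i ∈ Finset.range k, |P.coeff i|) * x * (1 + Real.log x) ^ (k - 1) := by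
        rw [abs_mul, abs_of_pos (by linarith), mul_comm _ x, mul_assoc]
        exact mul_le_mul_of_nonneg_left hev (by linarith)
      calc |partialSum (divFun k) x|
          ≤ |partialSum (divFun k) x - x * P.eval (Real.log x)| + |x * P.eval (Real.log x)| :=
            le_of_eq_of_le (congrArg abs (sub_add_cancel _ _).symm) (abs_add_le _ _)
        _ ≤ _ := by
            have h1 : 0 ≤ x * (1 + Real.log x) ^ (k - 1) := by positivity
            nlinarith [hC x hx2]

/-- Carried to the squares. -/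
theorem sqLift_divFun_mean {k : ℕ} (hk : 1 ≤ k) :
    Tendsto (fun x => partialSum (sqLift (divFun k)) x /
      (x ^ (1 / 2 : ℝ) * Real.log x ^ (k - 1))) atTop (𝓝 (1 / (k - 1)! / 2 ^ (k - 1))) ∧
    ∃ C : ℝ, ∀ x : ℝ, 1 ≤ x →
      |partialSum (sqLift (divFun k)) x| ≤ C * x ^ (1 / 2 : ℝ) * (1 + Real.log x) ^ (k - 1) := by
  obtain ⟨hlim, C, hC⟩ := divFun_mean hk
  constructor
  · refine ((hlim.comp Real.tendsto_sqrt_atTop).div_const (2 ^ (k - 1))).congr' ?_
    filter_upwards [eventually_gt_atTop 1] with x hx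
    simp only [Function.comp]
    rw [partialSum_sqLift, Real.rpow_one, Real.log_sqrt (by linarith), ← Real.sqrt_eq_rpow,
      div_pow, ← mul_div_assoc, div_div, div_mul_cancel₀ _ (pow_ne_zero _ two_ne_zero)]
  · refine ⟨C, fun x hx => ?_⟩
    rw [partialSum_sqLift, ← Real.sqrt_eq_rpow]
    have h1 := hC (Real.sqrt x) (Real.one_le_sqrt.mpr hx)
    rw [Real.rpow_one, Real.log_sqrt (by linarith)] at h1
    refine h1.trans ?_
    have hl := Real.log_nonneg hx
    have hC0 : 0 ≤ C := by
      have := hC 1 le_rfl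
      simp only [Real.one_rpow, Real.log_one, add_zero, one_pow, mul_one] at this
      exact (abs_nonneg _).trans this
    exact mul_le_mul_of_nonneg_left (pow_le_pow_left₀ (by linarith) (by linarith) _) (by positivity)

theorem divFun_one : divFun 1 = (ζ : ArithmeticFunction ℝ) := by rw [divFun_eq, pow_one]

theorem sqLift_moebius_mul_zeta :
    sqLift (μ : ArithmeticFunction ℝ) * sqLift (ζ : ArithmeticFunction ℝ) = 1 := by
  rw [← sqLift_mul, coe_moebius_mul_coe_zeta, sqLift_one]

theorem moebius_cast_isMultiplicative : (μ : ArithmeticFunction ℝ).IsMultiplicative :=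
  isMultiplicative_moebius.intCast

/-- A table of values on the prime powers with the bounds it gives. -/
theorem tame_cnt (S : Shape) (E : ℕ) (M : ℝ) (h2 : ∀ e, (E ≤ e → cnt S (2 ^ e) = 0) ∧
    cnt S (2 ^ e) ≤ M) (ho : ∀ p : ℕ, p.Prime → p ≠ 2 → ∀ e, (E ≤ e + 1 → cnt S (p ^ (e + 1)) = 0) ∧
    cnt S (p ^ (e + 1)) ≤ M) (hE : 1 ≤ E) (hM : 1 ≤ M) : Tame (cnt S) E M := by
  intro p hp e
  rw [abs_of_nonneg (cnt_nonneg S _)]
  rcases eq_or_ne p 2 with rfl | hp2
  · exact h2 e
  rcases e with _ | e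
  · exact ⟨fun h => by omega, by rwa [pow_zero, (cnt_isMultiplicative S).map_one]⟩
  · exact ho p hp hp2 e

theorem tame_quad : Tame (cnt quad) 4 2 := by
  refine tame_cnt quad 4 2 (fun e => ?_) (fun p hp hp2 e => ?_) (by norm_num) one_le_two
  · rw [cnt_two_quad]
    exact ⟨fun h => by rw [if_neg (by omega), if_neg (by omega)], by split_ifs <;> norm_num⟩
  · rw [cnt_odd_quad hp hp2]
    exact ⟨fun h => by rw [if_neg (by omega)], by split_ifs <;> norm_num⟩

theorem tame_cyc : Tame (cnt cyc) 12 4 := by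
  refine tame_cnt cyc 12 4 (fun e => ?_) (fun p hp hp2 e => ?_) (by norm_num) (by norm_num)
  · rw [cnt_two_cyc]
    exact ⟨fun h => by rw [if_neg (by omega), if_neg (by omega), if_neg (by omega)],
      by split_ifs <;> norm_num⟩
  · rw [cnt_odd_cyc hp hp2]
    exact ⟨fun h => by rw [if_neg (by omega), if_neg (by omega)], by split_ifs <;> norm_num⟩

theorem tame_klein : Tame (cnt klein) 9 6 := by
  refine tame_cnt klein 9 6 (fun e => ?_) (fun p hp hp2 e => ?_) (by norm_num) (by norm_num)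
  · rw [cnt_two_klein]
    exact ⟨fun h => by rw [if_neg (by omega), if_neg (by omega), if_neg (by omega)],
      by split_ifs <;> norm_num⟩
  · rw [cnt_odd_klein hp hp2]
    exact ⟨fun h => by rw [if_neg (by omega)], by split_ifs <;> norm_num⟩

/-- The local series of a function with finite table. -/
theorem locSum_eq_sum {f : ArithmeticFunction ℝ} {E : ℕ} {M : ℝ} (hf : Tame f E M) {p : ℕ}
    (hp : p.Prime) (x : ℝ) : locSum f p x = ∑ e ∈ Finset.range E, f (p ^ e) * x ^ e :=
  tsum_eq_sum fun e he => by rw [(hf p hp e).1 (by simpa using he), zero_mul]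

/-! ### Quadratic characters -/

/-- The correcting factor of the quadratic characters. -/
def quadCorr : ArithmeticFunction ℝ := cnt quad * (μ : ArithmeticFunction ℝ)

theorem quadCorr_isMultiplicative : quadCorr.IsMultiplicative :=
  (cnt_isMultiplicative quad).mul moebius_cast_isMultiplicative

theorem summable_quadCorr : Summable fun n : ℕ => |quadCorr n| / (n : ℝ) ^ (1 : ℝ) := by
  refine summable_of_local quadCorr_isMultiplicative (r := 2) zero_le_one (by norm_num)
    (tame_quad.step one_ne_zero isStep_moebius) fun p hp hp2 e h1 he => ?_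
  obtain rfl : e = 1 := by omega
  rw [quadCorr, step_mul one_ne_zero isStep_moebius hp, if_pos le_rfl, Nat.sub_self, pow_zero,
    (cnt_isMultiplicative quad).map_one, show p ^ 1 = p ^ (0 + 1) from rfl, cnt_odd_quad hp hp2,
    if_pos rfl, sub_self]

theorem quadCorr_series : ∑' n : ℕ, quadCorr n / (n : ℝ) ^ (1 : ℝ) = 6 / π ^ 2 := by
  have h := (hasProd_series quadCorr_isMultiplicative one_pos summable_quadCorr).mul
    FA.CubicCount.hasProd_zeta_two
  have e : ∀ p : Nat.Primes, locSum quadCorr p ((p : ℝ) ^ (1 : ℝ))⁻¹ *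
      (1 - ((p : ℝ) ^ 2)⁻¹)⁻¹ = 1 := by
    intro p
    have hp := p.2
    have h2 : (2 : ℝ) ≤ (p : ℕ) := by exact_mod_cast hp.two_le
    rw [quadCorr, locSum_step tame_quad one_ne_zero isStep_moebius hp, Real.rpow_one,
      locSum_eq_sum tame_quad hp]
    refine mul_inv_eq_one₀ (sub_ne_zero.mpr (ne_of_gt ?_)) |>.mpr ?_
    · exact inv_lt_one_of_one_lt₀ (one_lt_pow₀ (by linarith) two_ne_zero)
    rcases eq_or_ne (p : ℕ) 2 with hp2 | hp2
    · simp only [hp2, Finset.sum_range_succ, Finset.range_zero, Finset.sum_empty, cnt_two_quad]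
      norm_num
    · have h0 : (cnt quad) ((p : ℕ) ^ 0) = 1 := by
        rw [pow_zero, (cnt_isMultiplicative quad).map_one]
      simp only [Finset.sum_range_succ, Finset.range_zero, Finset.sum_empty, h0,
        show (p : ℕ) ^ 1 = (p : ℕ) ^ (0 + 1) from rfl,
        show (p : ℕ) ^ 2 = (p : ℕ) ^ (1 + 1) from rfl,
        show (p : ℕ) ^ 3 = (p : ℕ) ^ (2 + 1) from rfl, cnt_odd_quad hp hp2]
      norm_num
      ring
  have h1 := (h.congr_fun fun p => (e p).symm).unique hasProd_one
  have hπ : (0 : ℝ) < π ^ 2 := by positivity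
  field_simp at h1 ⊢
  linarith

/-- **Quadratic characters by conductor.** -/
theorem tendsto_quad :
    Tendsto (fun x => partialSum (cnt quad) x / x) atTop (𝓝 (6 / π ^ 2)) := by
  obtain ⟨hlim, C, hC⟩ := divFun_mean le_rfl
  have h := mean_convolution (h := quadCorr) 0 hlim hC summable_quadCorr
  rw [quadCorr_series, divFun_one, quadCorr, mul_assoc, coe_moebius_mul_coe_zeta, mul_one] at h
  simpa using h

/-! ### The cyclic shape -/

/-- The correcting factor of the cyclic shape. -/
def cycCorr : ArithmeticFunction ℝ := cnt cyc * sqLift (μ : ArithmeticFunction ℝ)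

theorem cycCorr_isMultiplicative : cycCorr.IsMultiplicative :=
  (cnt_isMultiplicative cyc).mul (sqLift_isMultiplicative moebius_cast_isMultiplicative)

theorem summable_cycCorr : Summable fun n : ℕ => |cycCorr n| / (n : ℝ) ^ (1 / 2 : ℝ) := by
  refine summable_of_local cycCorr_isMultiplicative (r := 3) (by norm_num) (by norm_num)
    (tame_cyc.step two_ne_zero isStep_sqLift_moebius) fun p hp hp2 e h1 he => ?_
  rw [cycCorr, step_mul two_ne_zero isStep_sqLift_moebius hp]
  interval_cases e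
  · rw [show p ^ 1 = p ^ (0 + 1) from rfl, cnt_odd_cyc hp hp2, if_neg zero_ne_one,
      if_neg (by omega), if_neg (by omega), sub_zero]
  · rw [show p ^ 2 = p ^ (1 + 1) from rfl, cnt_odd_cyc hp hp2, if_pos rfl, if_pos le_rfl,
      Nat.sub_self, pow_zero, (cnt_isMultiplicative cyc).map_one, sub_self]

/-- `∏ (1 + 2 / ((p + 1) √p))` over the primes `p ≡ 1 (mod 4)`. -/
def cycProduct : ℝ :=
  ∏' p : Nat.Primes,
    if (p : ℕ) % 4 = 1 then 1 + 2 / (((p : ℝ) + 1) * Real.sqrt p) else 1

theorem sqrt_inv_facts (p : ℕ) :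
    (((p : ℝ) ^ (1 / 2 : ℝ))⁻¹) ^ 2 = (p : ℝ)⁻¹ ∧ ((p : ℝ) ^ (1 / 2 : ℝ))⁻¹ = (Real.sqrt p)⁻¹ := by
  rw [← Real.sqrt_eq_rpow, inv_pow, Real.sq_sqrt (Nat.cast_nonneg p)]
  exact ⟨rfl, rfl⟩

theorem cycProduct_eq :
    (∑' n : ℕ, cycCorr n / (n : ℝ) ^ (1 / 2 : ℝ)) =
      6 / π ^ 2 * (1 + Real.sqrt 2 / 24) * cycProduct := by
  have h := ((hasProd_series cycCorr_isMultiplicative one_half_pos summable_cycCorr).mul
    FA.CubicCount.hasProd_zeta_two).mul
      (hasProd_ite_eq (⟨2, Nat.prime_two⟩ : Nat.Primes) (1 + Real.sqrt 2 / 24)⁻¹)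
  have e : ∀ p : Nat.Primes, locSum cycCorr p ((p : ℝ) ^ (1 / 2 : ℝ))⁻¹ *
      (1 - ((p : ℝ) ^ 2)⁻¹)⁻¹ *
        (if p = ⟨2, Nat.prime_two⟩ then (1 + Real.sqrt 2 / 24)⁻¹ else 1) =
      if (p : ℕ) % 4 = 1 then 1 + 2 / (((p : ℝ) + 1) * Real.sqrt p) else 1 := by
    intro p
    have hp := p.2
    have h2 : (2 : ℝ) ≤ (p : ℕ) := by exact_mod_cast hp.two_le
    obtain ⟨hx, hs⟩ := sqrt_inv_facts (p : ℕ)
    rw [cycCorr, locSum_step tame_cyc two_ne_zero isStep_sqLift_moebius hp,
      locSum_eq_sum tame_cyc hp, hx]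
    set x := ((p : ℝ) ^ (1 / 2 : ℝ))⁻¹
    rcases eq_or_ne p (⟨2, Nat.prime_two⟩ : Nat.Primes) with rfl | hne
    · rw [if_pos rfl, if_neg (by norm_num)]
      simp only [Finset.sum_range_succ, Finset.range_zero, Finset.sum_empty, cnt_two_cyc]
      norm_num
      norm_num at hx hs
      have hsq : Real.sqrt 2 * Real.sqrt 2 = 2 := Real.mul_self_sqrt (by norm_num)
      have h4 : x ^ 4 = 1 / 4 := by rw [show x ^ 4 = (x ^ 2) ^ 2 by ring, hx]; norm_num
      have h6 : x ^ 6 = 1 / 8 := by rw [show x ^ 6 = (x ^ 2) ^ 3 by ring, hx]; norm_num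
      have h11 : x ^ 11 = Real.sqrt 2 / 64 := by
        rw [show x ^ 11 = (x ^ 2) ^ 5 * x by ring, hx, hs]
        field_simp
        linear_combination (-32 : ℝ) * hsq
      rw [h4, h6, h11]
      field_simp
      ring
    · have hp2 : (p : ℕ) ≠ 2 := fun e => hne (Subtype.ext e)
      rw [if_neg hne, mul_one]
      have h0 : (cnt cyc) ((p : ℕ) ^ 0) = 1 := by
        rw [pow_zero, (cnt_isMultiplicative cyc).map_one]
      have hrest : ∑ i ∈ Finset.range 8, (cnt cyc) ((p : ℕ) ^ (4 + i)) * x ^ (4 + i) = 0 :=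
        Finset.sum_eq_zero fun i _ => by
          rw [show 4 + i = (3 + i) + 1 by omega, cnt_odd_cyc hp hp2, if_neg (by omega),
            if_neg (by omega), zero_mul]
      rw [show 12 = 4 + 8 from rfl, Finset.sum_range_add, hrest, add_zero]
      simp only [Finset.sum_range_succ, Finset.range_zero, Finset.sum_empty, h0,
        show (p : ℕ) ^ 1 = (p : ℕ) ^ (0 + 1) from rfl,
        show (p : ℕ) ^ 2 = (p : ℕ) ^ (1 + 1) from rfl,
        show (p : ℕ) ^ 3 = (p : ℕ) ^ (2 + 1) from rfl, cnt_odd_cyc hp hp2]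
      have hne1 : (p : ℝ) ^ 2 - 1 ≠ 0 := by nlinarith
      have hsp : 0 < Real.sqrt p := Real.sqrt_pos.mpr (by linarith)
      have hx3 : x ^ 3 = (p : ℝ)⁻¹ * (Real.sqrt p)⁻¹ := by
        rw [show x ^ 3 = x ^ 2 * x by ring, hx, hs]
      by_cases h1 : (p : ℕ) % 4 = 1 <;> simp [h1, hx, hx3] <;> field_simp <;> ring
  have h1 := (h.congr_fun fun p => (e p).symm).tprod_eq
  rw [cycProduct, h1]
  have hs : (0 : ℝ) < 1 + Real.sqrt 2 / 24 := by positivity
  field_simp

/-- **The cyclic shape by discriminant.** -/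
theorem tendsto_cyc : Tendsto (fun x => partialSum (cnt cyc) x / Real.sqrt x) atTop
    (𝓝 (6 / π ^ 2 * (1 + Real.sqrt 2 / 24) * cycProduct)) := by
  obtain ⟨hlim, C, hC⟩ := sqLift_divFun_mean le_rfl
  have h := mean_convolution (h := cycCorr) 0 hlim hC summable_cycCorr
  rw [cycProduct_eq, divFun_one, cycCorr, mul_assoc, sqLift_moebius_mul_zeta, mul_one] at h
  simpa [Real.sqrt_eq_rpow] using h

theorem cycProduct_pos : 0 < cycProduct := by
  have h0 : 0 ≤ 6 / π ^ 2 * (1 + Real.sqrt 2 / 24) * cycProduct :=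
    ge_of_tendsto' tendsto_cyc fun x =>
      div_nonneg (Finset.sum_nonneg fun n _ => cnt_nonneg cyc n) (Real.sqrt_nonneg x)
  refine lt_of_le_of_ne (nonneg_of_mul_nonneg_right h0 (by positivity)) (Ne.symm ?_)
  rw [cycProduct, show (fun p : Nat.Primes => if (p : ℕ) % 4 = 1 then
      1 + 2 / (((p : ℝ) + 1) * Real.sqrt p) else 1) = fun p : Nat.Primes =>
      1 + (if (p : ℕ) % 4 = 1 then 2 / (((p : ℝ) + 1) * Real.sqrt p) else 0) by
    funext p; split_ifs <;> ring]
  refine tprod_one_add_ne_zero_of_summable (fun p => ?_) ?_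
  · split_ifs
    · have : 0 ≤ 2 / (((p : ℝ) + 1) * Real.sqrt p) := by positivity
      linarith
    · norm_num
  · refine Summable.of_nonneg_of_le (fun _ => norm_nonneg _) (fun p => ?_)
      (((Real.summable_nat_rpow_inv.mpr (show (1 : ℝ) < 3 / 2 by norm_num)).mul_left
        (2 : ℝ)).comp_injective (Subtype.val_injective (p := Nat.Prime)))
    show ‖_‖ ≤ 2 * (((p : ℕ) : ℝ) ^ (3 / 2 : ℝ))⁻¹
    have hp0 : (0 : ℝ) < (p : ℕ) := Nat.cast_pos.mpr p.2.pos
    split_ifs
    · rw [Real.norm_of_nonneg (by positivity), ← div_eq_mul_inv,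
        show ((p : ℕ) : ℝ) ^ (3 / 2 : ℝ) = (p : ℕ) * Real.sqrt (p : ℕ) by
          rw [show (3 / 2 : ℝ) = 1 + 1 / 2 by norm_num, Real.rpow_add hp0, Real.rpow_one,
            ← Real.sqrt_eq_rpow]]
      exact div_le_div_of_nonneg_left two_pos.le (mul_pos hp0 (Real.sqrt_pos.mpr hp0))
        (mul_le_mul_of_nonneg_right (by linarith) (Real.sqrt_nonneg _))
    · rw [norm_zero]; positivity

/-! ### The biquadratic shape -/

/-- The correcting factor of the biquadratic shape. -/
def kleinCorr : ArithmeticFunction ℝ :=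
  cnt klein * sqLift (μ : ArithmeticFunction ℝ) * sqLift (μ : ArithmeticFunction ℝ) *
    sqLift (μ : ArithmeticFunction ℝ)

theorem kleinCorr_isMultiplicative : kleinCorr.IsMultiplicative :=
  (((cnt_isMultiplicative klein).mul (sqLift_isMultiplicative moebius_cast_isMultiplicative)).mul
    (sqLift_isMultiplicative moebius_cast_isMultiplicative)).mul
      (sqLift_isMultiplicative moebius_cast_isMultiplicative)

theorem tame_kleinCorr_one : Tame (cnt klein * sqLift (μ : ArithmeticFunction ℝ)) 11 12 := by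
  have h := tame_klein.step two_ne_zero isStep_sqLift_moebius
  norm_num at h
  exact h

theorem tame_kleinCorr_two :
    Tame (cnt klein * sqLift (μ : ArithmeticFunction ℝ) * sqLift (μ : ArithmeticFunction ℝ))
      13 24 := by
  have h := tame_kleinCorr_one.step two_ne_zero isStep_sqLift_moebius
  norm_num at h
  exact h

theorem summable_kleinCorr : Summable fun n : ℕ => |kleinCorr n| / (n : ℝ) ^ (1 / 2 : ℝ) := by
  refine summable_of_local kleinCorr_isMultiplicative (r := 4) (by norm_num) (by norm_num)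
    (tame_kleinCorr_two.step two_ne_zero isStep_sqLift_moebius) fun p hp hp2 e h1 he => ?_
  have c0 : (cnt klein) (p ^ 0) = 1 := by rw [pow_zero, (cnt_isMultiplicative klein).map_one]
  have cs : ∀ i, (cnt klein) (p ^ (i + 1)) = if i = 1 then 3 else 0 := cnt_odd_klein hp hp2
  simp only [kleinCorr, step_mul two_ne_zero isStep_sqLift_moebius hp]
  interval_cases e <;>
    norm_num [c0, (cnt_isMultiplicative klein).map_one, show p ^ 1 = p ^ (0 + 1) from rfl,
      show p ^ 2 = p ^ (1 + 1) from rfl,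
      show p ^ 3 = p ^ (2 + 1) from rfl, cs]

/-- `∏ (1 - 1/p) ^ 3 (1 + 3/p)`. -/
def kleinProduct : ℝ :=
  ∏' p : Nat.Primes, (1 - (p : ℝ)⁻¹) ^ 3 * (1 + 3 * (p : ℝ)⁻¹)

theorem kleinProduct_eq :
    (∑' n : ℕ, kleinCorr n / (n : ℝ) ^ (1 / 2 : ℝ)) = 23 / 20 * kleinProduct := by
  have h := (hasProd_series kleinCorr_isMultiplicative one_half_pos summable_kleinCorr).mul
    (hasProd_ite_eq (⟨2, Nat.prime_two⟩ : Nat.Primes) (20 / 23 : ℝ))
  have e : ∀ p : Nat.Primes, locSum kleinCorr p ((p : ℝ) ^ (1 / 2 : ℝ))⁻¹ *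
      (if p = ⟨2, Nat.prime_two⟩ then (20 / 23 : ℝ) else 1) =
      (1 - (p : ℝ)⁻¹) ^ 3 * (1 + 3 * (p : ℝ)⁻¹) := by
    intro p
    have hp := p.2
    obtain ⟨hx, -⟩ := sqrt_inv_facts (p : ℕ)
    rw [kleinCorr, locSum_step tame_kleinCorr_two two_ne_zero isStep_sqLift_moebius hp,
      locSum_step tame_kleinCorr_one two_ne_zero isStep_sqLift_moebius hp,
      locSum_step tame_klein two_ne_zero isStep_sqLift_moebius hp,
      locSum_eq_sum tame_klein hp, hx]
    set x := ((p : ℝ) ^ (1 / 2 : ℝ))⁻¹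
    rcases eq_or_ne p (⟨2, Nat.prime_two⟩ : Nat.Primes) with rfl | hne
    · rw [if_pos rfl]
      simp only [Finset.sum_range_succ, Finset.range_zero, Finset.sum_empty, cnt_two_klein]
      norm_num at hx
      have h4 : x ^ 4 = 1 / 4 := by rw [show x ^ 4 = (x ^ 2) ^ 2 by ring, hx]; norm_num
      have h6 : x ^ 6 = 1 / 8 := by rw [show x ^ 6 = (x ^ 2) ^ 3 by ring, hx]; norm_num
      have h8 : x ^ 8 = 1 / 16 := by rw [show x ^ 8 = (x ^ 2) ^ 4 by ring, hx]; norm_num
      norm_num [h4, h6, h8]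
    · have hp2 : (p : ℕ) ≠ 2 := fun e => hne (Subtype.ext e)
      rw [if_neg hne, mul_one]
      have h0 : (cnt klein) ((p : ℕ) ^ 0) = 1 := by
        rw [pow_zero, (cnt_isMultiplicative klein).map_one]
      rw [Finset.sum_range_succ', h0, Finset.sum_eq_single 1]
      · rw [cnt_odd_klein hp hp2, if_pos rfl, hx, pow_zero]
        ring
      · intro i _ hi
        rw [cnt_odd_klein hp hp2, if_neg hi, zero_mul]
      · simp
  have h1 := (h.congr_fun fun p => (e p).symm).tprod_eq
  rw [kleinProduct, h1]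
  ring

/-- **The biquadratic shape by discriminant.** -/
theorem tendsto_klein :
    Tendsto (fun x => partialSum (cnt klein) x / (Real.sqrt x * Real.log x ^ 2)) atTop
      (𝓝 (23 / 160 * kleinProduct)) := by
  obtain ⟨hlim, C, hC⟩ := sqLift_divFun_mean (show 1 ≤ 3 by norm_num)
  have h := mean_convolution (h := kleinCorr) 2 hlim hC summable_kleinCorr
  have e : kleinCorr * sqLift (divFun 3) = cnt klein := by
    rw [kleinCorr, divFun_eq, pow_succ, pow_two, sqLift_mul, sqLift_mul]
    calc cnt klein * sqLift (μ : ArithmeticFunction ℝ) * sqLift (μ : ArithmeticFunction ℝ) *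
          sqLift (μ : ArithmeticFunction ℝ) *
          (sqLift (ζ : ArithmeticFunction ℝ) * sqLift (ζ : ArithmeticFunction ℝ) *
            sqLift (ζ : ArithmeticFunction ℝ))
        = cnt klein * (sqLift (μ : ArithmeticFunction ℝ) * sqLift (ζ : ArithmeticFunction ℝ)) *
            (sqLift (μ : ArithmeticFunction ℝ) * sqLift (ζ : ArithmeticFunction ℝ)) *
            (sqLift (μ : ArithmeticFunction ℝ) * sqLift (ζ : ArithmeticFunction ℝ)) := by ring
      _ = cnt klein := by simp [sqLift_moebius_mul_zeta]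
  rw [e, kleinProduct_eq] at h
  convert h using 2
  · simp [Real.sqrt_eq_rpow]
  · norm_num [Nat.factorial]
    ring

theorem kleinProduct_pos : 0 < kleinProduct := by
  have h0 : 0 ≤ 23 / 160 * kleinProduct :=
    ge_of_tendsto tendsto_klein (Eventually.of_forall fun x =>
      div_nonneg (Finset.sum_nonneg fun n _ => cnt_nonneg klein n)
        (mul_nonneg (Real.sqrt_nonneg x) (sq_nonneg _)))
  refine lt_of_le_of_ne (nonneg_of_mul_nonneg_right h0 (by norm_num)) (Ne.symm ?_)
  rw [kleinProduct, show (fun p : Nat.Primes => (1 - (p : ℝ)⁻¹) ^ 3 * (1 + 3 * (p : ℝ)⁻¹)) =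
      fun p : Nat.Primes => 1 + ((1 - (p : ℝ)⁻¹) ^ 3 * (1 + 3 * (p : ℝ)⁻¹) - 1) by
    funext p; ring]
  refine tprod_one_add_ne_zero_of_summable (fun p => ?_) ?_
  · have h1 : (p : ℝ)⁻¹ ≤ 1 / 2 := by
      rw [one_div]; exact inv_anti₀ two_pos (by exact_mod_cast p.2.two_le)
    have h2 : (0 : ℝ) ≤ (p : ℝ)⁻¹ := by positivity
    rw [add_sub_cancel]
    exact (mul_pos (pow_pos (by linarith) 3) (by linarith)).ne'
  · refine Summable.of_nonneg_of_le (fun _ => norm_nonneg _) (fun p => ?_)
      (((Real.summable_nat_pow_inv.mpr one_lt_two).mul_left (17 : ℝ)).comp_injective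
        (Subtype.val_injective (p := Nat.Prime)))
    show ‖_‖ ≤ 17 * (((p : ℕ) : ℝ) ^ 2)⁻¹
    rw [← inv_pow]
    set t := (((p : ℕ) : ℝ))⁻¹
    have ht0 : 0 ≤ t := by positivity
    have ht1 : t ≤ 1 := inv_le_one_of_one_le₀ (by exact_mod_cast p.2.one_lt.le)
    rw [Real.norm_eq_abs, show (1 - t) ^ 3 * (1 + 3 * t) - 1 = t ^ 2 * (-6 + 8 * t - 3 * t ^ 2)
      by ring, abs_mul, abs_of_nonneg (sq_nonneg t), mul_comm (17 : ℝ)]
    refine mul_le_mul_of_nonneg_left (abs_le.mpr ⟨?_, ?_⟩) (sq_nonneg t) <;> nlinarith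

end FA.AbelianQuartic
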