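import Fermat.Agent.AbelianQuartic.Fields
import Fermat.Agent.AbelianQuartic.Means

/-!
# Baily's theorem

Twice the number of cyclic quartic fields is the count of the cyclic shape less that of quadratic
characters up to the square root, six times that of biquadratic fields is the count of the
biquadratic shape up to three times the latter.
-/

set_option autoImplicit false
set_option linter.style.haveILetI false

noncomputable section

open NumberField DirichletCharacter Module Filter Topology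
open scoped Classical Nat Real

namespace FA.AbelianQuartic

variable {N : ℕ} [NeZero N]

theorem prodCond_pos (S : Shape) (v : DirichletCharacter ℂ N × DirichletCharacter ℂ N) :
    0 < prodCond S v :=
  Nat.pos_of_ne_zero (Finset.prod_ne_zero_iff.mpr fun _ _ => conductor_ne_zero _)

/-- The pairs with small product of conductors. -/
def small (S : Shape) (N : ℕ) [NeZero N] (X : ℕ) :
    Finset (DirichletCharacter ℂ N × DirichletCharacter ℂ N) :=
  Finset.univ.filter fun v => Valid S v ∧ prodCond S v ≤ X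

theorem card_small (S : Shape) {X : ℕ} (hN : ∀ d, d ≠ 0 → d ≤ X → d ∣ N) :
    ((small S N X).card : ℝ) = partialSum (cnt S) X := by
  rw [partialSum, Nat.floor_natCast, ← card_prodCond_mem S (Finset.Ioc 0 X) fun d hd =>
    hN d (Finset.mem_Ioc.mp hd).1.ne' (Finset.mem_Ioc.mp hd).2,
    Nat.card_eq_fintype_card, Fintype.card_subtype, small]
  refine congrArg Nat.cast (congrArg Finset.card (Finset.filter_congr fun v _ => ?_))
  rw [Finset.mem_Ioc]
  exact ⟨fun h => ⟨h.1, prodCond_pos S v, h.2⟩, fun h => ⟨h.1, h.2.2⟩⟩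

omit [NeZero N] in
theorem prodCond_quad (χ ψ : DirichletCharacter ℂ N) :
    prodCond quad (χ, ψ) = χ.conductor := by simp [prodCond, quad]

theorem prodCond_cyc_sq {χ : DirichletCharacter ℂ N} (h : χ ^ 2 = 1) :
    prodCond cyc (χ, 1) = χ.conductor ^ 2 := by
  have h3 : χ ^ 3 = χ := by rw [pow_succ, h, one_mul]
  simp [prodCond, cyc, h, h3, conductor_one]
  ring

/-- **The cyclic count.** -/
theorem card_cyclic_split (X : ℕ) :
    (Finset.univ.filter fun χ : DirichletCharacter ℂ N =>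
        χ ^ 4 = 1 ∧ χ ^ 2 ≠ 1 ∧ prodCond cyc (χ, 1) ≤ X).card + (small quad N X.sqrt).card =
      (small cyc N X).card := by
  have hA : ((small cyc N X).filter fun v => v.1 ^ 2 ≠ 1).card =
      (Finset.univ.filter fun χ : DirichletCharacter ℂ N =>
        χ ^ 4 = 1 ∧ χ ^ 2 ≠ 1 ∧ prodCond cyc (χ, 1) ≤ X).card := by
    refine Finset.card_bij' (fun v _ => v.1) (fun χ _ => (χ, 1)) (fun v hv => ?_) (fun χ hχ => ?_)
      (fun v hv => ?_) fun _ _ => rfl
    · simp only [small, Finset.mem_filter, Finset.mem_univ, true_and, Valid] at hv ⊢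
      obtain ⟨⟨⟨h4, h1⟩, hd⟩, h2⟩ := hv
      have e : v.2 = 1 := (pow_one v.2).symm.trans h1
      rw [show v = (v.1, (1 : DirichletCharacter ℂ N)) from Prod.ext rfl e] at hd
      exact ⟨h4, h2, hd⟩
    · simp only [small, Finset.mem_filter, Finset.mem_univ, true_and, Valid] at hχ ⊢
      exact ⟨⟨⟨hχ.1, one_pow _⟩, hχ.2.2⟩, hχ.2.1⟩
    · simp only [small, Finset.mem_filter, Valid] at hv
      exact Prod.ext rfl ((pow_one v.2).symm.trans hv.1.2.1.2).symm
  have hB : (small cyc N X).filter (fun v => ¬v.1 ^ 2 ≠ 1) = small quad N X.sqrt := by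
    ext ⟨χ, ψ⟩
    simp only [small, Finset.mem_filter, Finset.mem_univ, true_and, Valid, not_not, prodCond_quad]
    constructor
    · rintro ⟨⟨⟨-, h1⟩, hd⟩, h2⟩
      obtain rfl : ψ = 1 := (pow_one ψ).symm.trans h1
      rw [prodCond_cyc_sq h2] at hd
      exact ⟨⟨h2, one_pow _⟩, Nat.le_sqrt'.mpr hd⟩
    · rintro ⟨⟨h2, h1⟩, hd⟩
      obtain rfl : ψ = 1 := (pow_one ψ).symm.trans h1
      replace h2 : χ ^ 2 = 1 := h2
      refine ⟨⟨⟨?_, one_pow _⟩, by rw [prodCond_cyc_sq h2]; exact Nat.le_sqrt'.mp hd⟩, h2⟩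
      show χ ^ 4 = 1
      rw [show 4 = 2 * 2 from rfl, pow_mul, h2, one_pow]
  rw [← hA, ← hB, Finset.card_filter_add_card_filter_not]

/-- **The biquadratic count.** -/
theorem card_klein_bounds (X : ℕ) :
    (Finset.univ.filter fun v : DirichletCharacter ℂ N × DirichletCharacter ℂ N =>
        Valid klein v ∧ v.1 ≠ 1 ∧ v.2 ≠ 1 ∧ v.1 ≠ v.2 ∧ prodCond klein v ≤ X).card ≤
      (small klein N X).card ∧
    (small klein N X).card ≤
      (Finset.univ.filter fun v : DirichletCharacter ℂ N × DirichletCharacter ℂ N =>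
        Valid klein v ∧ v.1 ≠ 1 ∧ v.2 ≠ 1 ∧ v.1 ≠ v.2 ∧ prodCond klein v ≤ X).card +
      3 * (small quad N X.sqrt).card := by
  set T := Finset.univ.filter fun v : DirichletCharacter ℂ N × DirichletCharacter ℂ N =>
    Valid klein v ∧ v.1 ≠ 1 ∧ v.2 ≠ 1 ∧ v.1 ≠ v.2 ∧ prodCond klein v ≤ X
  refine ⟨Finset.card_le_card fun v hv => ?_, ?_⟩
  · simp only [T, small, Finset.mem_filter] at hv ⊢
    exact ⟨hv.1, hv.2.1, hv.2.2.2.2.2⟩
  set Q := small quad N X.sqrt
  have hQ : ∀ η : DirichletCharacter ℂ N, η ^ 2 = 1 → η.conductor * η.conductor ≤ X →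
      (η, 1) ∈ Q := fun η h2 hd => by
    simp only [Q, small, Finset.mem_filter, Finset.mem_univ, true_and, Valid, prodCond_quad]
    exact ⟨⟨h2, one_pow _⟩, Nat.le_sqrt.mpr hd⟩
  have hsub : small klein N X ⊆ T ∪ (Q ∪ (Q.image (fun v => (v.2, v.1)) ∪
      Q.image (fun v => (v.1, v.1)))) := by
    rintro ⟨χ, ψ⟩ hv
    simp only [small, Finset.mem_filter, Finset.mem_univ, true_and, Valid] at hv
    obtain ⟨⟨hχ, hψ⟩, hd⟩ := hv
    have hD : prodCond klein (χ, ψ) = χ.conductor * (ψ.conductor * (χ * ψ).conductor) := by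
      simp [prodCond, klein]
    simp only [Finset.mem_union, Finset.mem_image]
    by_cases h1' : ψ = 1
    · subst h1'
      rw [hD, conductor_one, one_mul, mul_one] at hd
      exact Or.inr (Or.inl (hQ χ hχ hd))
    by_cases h1 : χ = 1
    · subst h1
      rw [hD, conductor_one, one_mul, one_mul] at hd
      exact Or.inr (Or.inr (Or.inl ⟨(ψ, 1), hQ ψ hψ hd, rfl⟩))
    by_cases hne : χ = ψ
    · subst hne
      have hχ' : χ ^ 2 = 1 := hχ
      rw [hD, ← pow_two, hχ', conductor_one, mul_one] at hd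
      exact Or.inr (Or.inr (Or.inr ⟨(χ, 1), hQ χ hχ hd, rfl⟩))
    · exact Or.inl (Finset.mem_filter.mpr ⟨Finset.mem_univ _, ⟨hχ, hψ⟩, h1, h1', hne, hd⟩)
  refine (Finset.card_le_card hsub).trans ?_
  refine (Finset.card_union_le _ _).trans (Nat.add_le_add_left ?_ _)
  refine (Finset.card_union_le _ _).trans ?_
  have := Finset.card_union_le (Q.image fun v => (v.2, v.1)) (Q.image fun v => (v.1, v.1))
  have := Finset.card_image_le (s := Q) (f := fun v => (v.2, v.1))
  have := Finset.card_image_le (s := Q) (f := fun v => (v.1, v.1))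
  omega

/-! ### In terms of fields -/

theorem factorial_dvd (X : ℕ) : ∀ d, d ≠ 0 → d ≤ X → d ∣ X ! :=
  fun _ h0 h => Nat.dvd_factorial (Nat.pos_of_ne_zero h0) h

theorem two_mul_cyclic (X : ℕ) :
    2 * ({F | F ∈ quartics X ∧ IsCyclic Gal(F/ℚ)}.ncard : ℝ) =
      partialSum (cnt cyc) X - partialSum (cnt quad) X.sqrt := by
  haveI : NeZero X ! := ⟨Nat.factorial_ne_zero X⟩
  have hX := factorial_dvd X
  rw [ncard_cyclic_quartics hX, ← card_small cyc hX,
    ← card_small quad (N := X !) (fun d h0 h => hX d h0 (h.trans (Nat.sqrt_le_self X))),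
    ← card_cyclic_split (N := X !) X, ← two_mul_cyclic_groups]
  push_cast
  ring

theorem six_mul_noncyclic (X : ℕ) :
    partialSum (cnt klein) X - 3 * partialSum (cnt quad) X.sqrt ≤
        6 * ({F | F ∈ quartics X ∧ ¬IsCyclic Gal(F/ℚ)}.ncard : ℝ) ∧
      6 * ({F | F ∈ quartics X ∧ ¬IsCyclic Gal(F/ℚ)}.ncard : ℝ) ≤ partialSum (cnt klein) X := by
  haveI : NeZero X ! := ⟨Nat.factorial_ne_zero X⟩
  have hX := factorial_dvd X
  rw [ncard_noncyclic_quartics hX, ← card_small klein hX,
    ← card_small quad (N := X !) (fun d h0 h => hX d h0 (h.trans (Nat.sqrt_le_self X)))]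
  obtain ⟨h1, h2⟩ := card_klein_bounds (N := X !) X
  rw [← six_mul_klein_groups] at h1 h2
  constructor
  · rw [sub_le_iff_le_add]
    exact_mod_cast h2
  · exact_mod_cast h1

theorem partialSum_floor (f : ArithmeticFunction ℝ) (X : ℝ) :
    partialSum f (⌊X⌋₊ : ℕ) = partialSum f X := by
  rw [partialSum, partialSum, Nat.floor_natCast]

theorem sqrt_floor (X : ℝ) : Nat.sqrt ⌊X⌋₊ = ⌊Real.sqrt X⌋₊ :=
  eq_of_forall_le_iff fun m => by rw [le_floor_sqrt_iff, Nat.le_sqrt]

theorem tendsto_quad_sqrt :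
    Tendsto (fun X : ℝ => partialSum (cnt quad) (Nat.sqrt ⌊X⌋₊ : ℕ) / Real.sqrt X) atTop
      (𝓝 (6 / π ^ 2)) := by
  simp only [sqrt_floor, partialSum_floor]
  exact tendsto_quad.comp Real.tendsto_sqrt_atTop

/-- **Cyclic quartic fields.** -/
theorem tendsto_cyclic :
    Tendsto (fun X : ℝ =>
      ({F | F ∈ quartics ⌊X⌋₊ ∧ IsCyclic Gal(F/ℚ)}.ncard : ℝ) / Real.sqrt X) atTop
      (𝓝 (3 / π ^ 2 * ((1 + Real.sqrt 2 / 24) * cycProduct - 1))) := by
  have h := (tendsto_cyc.sub tendsto_quad_sqrt).div_const 2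
  convert h using 2 with X
  · rw [← sub_div, ← partialSum_floor (cnt cyc), ← two_mul_cyclic]
    ring
  · ring

theorem cycProduct_gt : 1 < (1 + Real.sqrt 2 / 24) * cycProduct := by
  have hpos : ∀ p : Nat.Primes, (1 : ℝ) ≤
      if (p : ℕ) % 4 = 1 then 1 + 2 / (((p : ℝ) + 1) * Real.sqrt p) else 1 := fun p => by
    split_ifs
    · exact le_add_of_nonneg_right (by positivity)
    · exact le_rfl
  have h1 : 1 ≤ cycProduct := by
    by_contra hlt
    push Not at hlt
    have hm : Multipliable fun p : Nat.Primes =>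
        if (p : ℕ) % 4 = 1 then 1 + 2 / (((p : ℝ) + 1) * Real.sqrt p) else 1 := by
      by_contra hm
      rw [cycProduct, tprod_eq_one_of_not_multipliable hm] at hlt
      exact lt_irrefl _ hlt
    have := ge_of_tendsto' hm.hasProd fun s => Finset.one_le_prod fun p _ => hpos p
    exact absurd this (not_le.mpr hlt)
  have h2 : 0 < Real.sqrt 2 := Real.sqrt_pos.mpr two_pos
  nlinarith

theorem cyclicConst_pos : 0 < 3 / π ^ 2 * ((1 + Real.sqrt 2 / 24) * cycProduct - 1) :=
  mul_pos (by positivity) (sub_pos.mpr cycProduct_gt)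

/-- **Biquadratic fields.** -/
theorem tendsto_noncyclic :
    Tendsto (fun X : ℝ => ({F | F ∈ quartics ⌊X⌋₊ ∧ ¬IsCyclic Gal(F/ℚ)}.ncard : ℝ) /
      (Real.sqrt X * Real.log X ^ 2)) atTop (𝓝 (23 / 960 * kleinProduct)) := by
  have hq : Tendsto (fun X : ℝ => partialSum (cnt quad) (Nat.sqrt ⌊X⌋₊ : ℕ) /
      (Real.sqrt X * Real.log X ^ 2)) atTop (𝓝 0) := by
    refine (tendsto_quad_sqrt.div_atTop
      ((tendsto_pow_atTop two_ne_zero).comp Real.tendsto_log_atTop)).congr fun X => ?_
    simp only [Function.comp, div_div]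
  have hlow := (tendsto_klein.sub (hq.const_mul 3)).div_const 6
  have hup := tendsto_klein.div_const 6
  rw [mul_zero, sub_zero, show 23 / 160 * kleinProduct / 6 = 23 / 960 * kleinProduct by ring]
    at hlow
  rw [show 23 / 160 * kleinProduct / 6 = 23 / 960 * kleinProduct by ring] at hup
  refine tendsto_of_tendsto_of_tendsto_of_le_of_le' hlow hup ?_ ?_ <;>
    filter_upwards [eventually_gt_atTop (1 : ℝ)] with X hX
  all_goals
    have hden : 0 < Real.sqrt X * Real.log X ^ 2 :=
      mul_pos (Real.sqrt_pos.mpr (by linarith)) (pow_pos (Real.log_pos hX) 2)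
    obtain ⟨h1, h2⟩ := six_mul_noncyclic ⌊X⌋₊
    rw [partialSum_floor (cnt klein)] at h1 h2
  · rw [mul_div_assoc', ← sub_div, div_div, div_le_div_iff₀ (mul_pos hden (by norm_num)) hden]
    nlinarith
  · rw [div_div, div_le_div_iff₀ hden (mul_pos hden (by norm_num))]
    nlinarith

theorem noncyclicConst_pos : 0 < 23 / 960 * kleinProduct := mul_pos (by norm_num) kleinProduct_pos

/-- **Galois quartic fields.** -/
theorem tendsto_galois :
    Tendsto (fun X : ℝ => ((quartics ⌊X⌋₊).ncard : ℝ) / (Real.sqrt X * Real.log X ^ 2)) atTop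
      (𝓝 (23 / 960 * kleinProduct)) := by
  have h0 : Tendsto (fun X : ℝ => ({F | F ∈ quartics ⌊X⌋₊ ∧ IsCyclic Gal(F/ℚ)}.ncard : ℝ) /
      (Real.sqrt X * Real.log X ^ 2)) atTop (𝓝 0) := by
    refine (tendsto_cyclic.div_atTop
      ((tendsto_pow_atTop two_ne_zero).comp Real.tendsto_log_atTop)).congr fun X => ?_
    simp only [Function.comp, div_div]
  have h := h0.add tendsto_noncyclic
  rw [zero_add] at h
  refine h.congr fun X => ?_
  rw [← add_div, ← Nat.cast_add, ← Set.ncard_union_eq ?_ ((finite_quartics _).subset fun F h => h.1)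
    ((finite_quartics _).subset fun F h => h.1)]
  · congr 3
    ext F
    by_cases hc : IsCyclic Gal(F/ℚ) <;> simp [hc]
  · exact Set.disjoint_left.mpr fun F h h' => h'.2 h.2

end FA.AbelianQuartic
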