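import Mathlib.NumberTheory.ArithmeticFunction.Defs
import Mathlib.NumberTheory.DirichletCharacter.Orthogonality
import Mathlib.NumberTheory.MulChar.Duality
import Mathlib.RingTheory.RootsOfUnity.AlgebraicallyClosed
import Mathlib.Analysis.Complex.Polynomial.Basic

/-!
# Tuples of characters by the product of their conductors

Conductors multiply at coprime levels, hence the number of pairs of characters of given exponents
with a given product of conductors is multiplicative in that product.
-/

set_option autoImplicit false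
set_option linter.style.haveILetI false

noncomputable section

open DirichletCharacter
open scoped Classical

namespace FA.AbelianQuartic

/-- Exponents `k`, `k'` of a pair of characters and the combinations whose conductors count. -/
structure Shape where
  k : ℕ
  k' : ℕ
  W : Finset (ℕ × ℕ)
  kpos : 0 < k
  kpos' : 0 < k'
  mem_left : (1, 0) ∈ W
  mem_right : k' = 1 ∨ (0, 1) ∈ W

/-- The characters of order at most two. -/
def quad : Shape := ⟨2, 1, {(1, 0)}, two_pos, one_pos, by decide, Or.inl rfl⟩

/-- The groups of characters of cyclic quartic fields. -/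
def cyc : Shape := ⟨4, 1, {(1, 0), (2, 0), (3, 0)}, by decide, one_pos, by decide, Or.inl rfl⟩

/-- The groups of characters of biquadratic fields. -/
def klein : Shape := ⟨2, 2, {(1, 0), (0, 1), (1, 1)}, two_pos, two_pos, by decide,
  Or.inr (by decide)⟩

variable {N : ℕ}

/-- The pair is killed by the exponents. -/
def Valid (S : Shape) (v : DirichletCharacter ℂ N × DirichletCharacter ℂ N) : Prop :=
  v.1 ^ S.k = 1 ∧ v.2 ^ S.k' = 1

/-- The product of the conductors. -/
def prodCond (S : Shape) (v : DirichletCharacter ℂ N × DirichletCharacter ℂ N) : ℕ :=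
  ∏ w ∈ S.W, (v.1 ^ w.1 * v.2 ^ w.2).conductor

/-- The pairs at level `N` with product of conductors `d`. -/
def tally (S : Shape) (N d : ℕ) : ℕ :=
  Nat.card {v : DirichletCharacter ℂ N × DirichletCharacter ℂ N // Valid S v ∧ prodCond S v = d}

/-- The pairs by the product of their conductors. -/
def cnt (S : Shape) : ArithmeticFunction ℝ :=
  ⟨fun d => if d = 0 then 0 else (tally S d d : ℝ), if_pos rfl⟩

theorem cnt_apply (S : Shape) {d : ℕ} (hd : d ≠ 0) : cnt S d = (tally S d d : ℝ) := if_neg hd

theorem cnt_nonneg (S : Shape) (d : ℕ) : 0 ≤ cnt S d := by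
  rcases eq_or_ne d 0 with rfl | hd
  · simp
  · rw [cnt_apply S hd]; exact Nat.cast_nonneg _

/-- Raise both members to a multiple of the level. -/
def liftPair {m : ℕ} (h : m ∣ N) (v : DirichletCharacter ℂ m × DirichletCharacter ℂ m) :
    DirichletCharacter ℂ N × DirichletCharacter ℂ N :=
  (changeLevel h v.1, changeLevel h v.2)

theorem prodCond_liftPair [NeZero N] (S : Shape) {m : ℕ} (h : m ∣ N)
    (v : DirichletCharacter ℂ m × DirichletCharacter ℂ m) :
    prodCond S (liftPair h v) = prodCond S v := by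
  refine Finset.prod_congr rfl fun w _ => ?_
  rw [liftPair, ← map_pow, ← map_pow, ← map_mul, conductor_changeLevel]

theorem valid_liftPair [NeZero N] (S : Shape) {m : ℕ} (h : m ∣ N)
    (v : DirichletCharacter ℂ m × DirichletCharacter ℂ m) :
    Valid S (liftPair h v) ↔ Valid S v := by
  simp only [Valid, liftPair, ← map_pow, map_eq_one_iff _ (changeLevel_injective h)]

theorem liftPair_injective [NeZero N] {m : ℕ} (h : m ∣ N) :
    Function.Injective (liftPair h) := fun _ _ e =>
  Prod.ext (changeLevel_injective h (congrArg Prod.fst e))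
    (changeLevel_injective h (congrArg Prod.snd e))

theorem conductor_dvd_prodCond [NeZero N] (S : Shape)
    {v : DirichletCharacter ℂ N × DirichletCharacter ℂ N} (h : Valid S v) :
    v.1.conductor ∣ prodCond S v ∧ v.2.conductor ∣ prodCond S v := by
  have key : ∀ w ∈ S.W, (v.1 ^ w.1 * v.2 ^ w.2).conductor ∣ prodCond S v :=
    fun w hw => Finset.dvd_prod_of_mem _ hw
  refine ⟨by simpa using key _ S.mem_left, ?_⟩
  rcases S.mem_right with e | e
  · have h2 := h.2
    rw [e, pow_one] at h2
    rw [h2, conductor_one]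
    exact one_dvd _
  · simpa using key _ e

theorem exists_changeLevel [NeZero N] {d : ℕ} (hd : d ∣ N) {χ : DirichletCharacter ℂ N}
    (h : χ.conductor ∣ d) : ∃ ψ, changeLevel hd ψ = χ := by
  obtain ⟨_, ψ, hψ⟩ := (mem_conductorSet_iff_conductor_dvd χ hd).mpr h
  exact ⟨ψ, hψ.symm⟩

/-- **The tally does not depend on the level.** -/
theorem tally_eq [NeZero N] (S : Shape) {d : ℕ} (hd : d ∣ N) : tally S N d = tally S d d := by
  refine (Nat.card_congr (Equiv.ofBijective
    (fun v : {v : DirichletCharacter ℂ d × DirichletCharacter ℂ d //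
        Valid S v ∧ prodCond S v = d} =>
      (⟨liftPair hd v.1, (valid_liftPair S hd v.1).mpr v.2.1,
        (prodCond_liftPair S hd v.1).trans v.2.2⟩ :
        {v : DirichletCharacter ℂ N × DirichletCharacter ℂ N // Valid S v ∧ prodCond S v = d}))
    ⟨fun _ _ e => Subtype.ext (liftPair_injective hd (congrArg Subtype.val e)), fun v => ?_⟩)).symm
  obtain ⟨⟨χ, ψ⟩, hv, hD⟩ := v
  obtain ⟨h1, h2⟩ := conductor_dvd_prodCond S hv
  rw [hD] at h1 h2
  obtain ⟨χ₀, rfl⟩ := exists_changeLevel hd h1
  obtain ⟨ψ₀, rfl⟩ := exists_changeLevel hd h2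
  exact ⟨⟨(χ₀, ψ₀), (valid_liftPair S hd _).mp hv,
    (prodCond_liftPair S hd (χ₀, ψ₀)).symm.trans hD⟩, rfl⟩

/-- A product factors through the least common multiple of the conductors. -/
theorem conductor_mul_dvd_lcm [NeZero N] (χ ψ : DirichletCharacter ℂ N) :
    (χ * ψ).conductor ∣ Nat.lcm χ.conductor ψ.conductor := by
  set L := Nat.lcm χ.conductor ψ.conductor
  have hL : L ∣ N := Nat.lcm_dvd χ.conductor_dvd_level ψ.conductor_dvd_level
  obtain ⟨χ₀, h1⟩ := exists_changeLevel hL (Nat.dvd_lcm_left χ.conductor ψ.conductor)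
  obtain ⟨ψ₀, h2⟩ := exists_changeLevel hL (Nat.dvd_lcm_right χ.conductor ψ.conductor)
  exact conductor_dvd_of_mem_conductorSet _ ⟨hL, χ₀ * ψ₀, by rw [map_mul, h1, h2]⟩

/-- **Coprime conductors multiply.** -/
theorem conductor_mul_of_coprime [NeZero N] (χ ψ : DirichletCharacter ℂ N)
    (h : χ.conductor.Coprime ψ.conductor) :
    (χ * ψ).conductor = χ.conductor * ψ.conductor := by
  refine Nat.dvd_antisymm ?_ (h.mul_dvd_of_dvd_of_dvd ?_ ?_)
  · exact (conductor_mul_dvd_lcm χ ψ).trans (Nat.lcm_dvd (dvd_mul_right _ _) (dvd_mul_left _ _))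
  · have e := conductor_mul_dvd_lcm (χ * ψ) ψ⁻¹
    rw [mul_inv_cancel_right, conductor_inv] at e
    exact h.dvd_of_dvd_mul_right (e.trans (Nat.lcm_dvd_mul _ _))
  · have e := conductor_mul_dvd_lcm (χ * ψ) χ⁻¹
    rw [mul_comm χ ψ, mul_inv_cancel_right, conductor_inv, mul_comm ψ χ] at e
    exact h.symm.dvd_of_dvd_mul_right (e.trans (Nat.lcm_dvd_mul _ _))

section CRT

variable {m n : ℕ} [NeZero m] [NeZero n]

/-- The product of a character mod `m` and one mod `n`. -/
def joinChar (m n : ℕ) :
    DirichletCharacter ℂ m × DirichletCharacter ℂ n →* DirichletCharacter ℂ (m * n) where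
  toFun v := changeLevel (dvd_mul_right m n) v.1 * changeLevel (dvd_mul_left n m) v.2
  map_one' := by simp
  map_mul' v w := by simp only [Prod.fst_mul, Prod.snd_mul, map_mul]; exact mul_mul_mul_comm _ _ _ _

theorem conductor_joinChar (hc : m.Coprime n) (χ : DirichletCharacter ℂ m)
    (ψ : DirichletCharacter ℂ n) :
    (joinChar m n (χ, ψ)).conductor = χ.conductor * ψ.conductor := by
  show (changeLevel _ χ * changeLevel _ ψ).conductor = _
  rw [conductor_mul_of_coprime, conductor_changeLevel, conductor_changeLevel]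
  rw [conductor_changeLevel, conductor_changeLevel]
  exact Nat.Coprime.of_dvd χ.conductor_dvd_level ψ.conductor_dvd_level hc

theorem joinChar_injective (hc : m.Coprime n) : Function.Injective (joinChar m n) := by
  rw [injective_iff_map_eq_one]
  rintro ⟨χ, ψ⟩ h
  have e := conductor_joinChar hc χ ψ
  rw [h, conductor_one] at e
  exact Prod.ext (eq_one_iff_conductor_eq_one.mpr (Nat.eq_one_of_mul_eq_one_right e.symm))
    (eq_one_iff_conductor_eq_one.mpr (Nat.eq_one_of_mul_eq_one_left e.symm))

theorem joinChar_bijective (hc : m.Coprime n) : Function.Bijective (joinChar m n) := by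
  haveI : Finite (DirichletCharacter ℂ (m * n)) := inferInstance
  refine (Nat.bijective_iff_injective_and_card _).mpr ⟨joinChar_injective hc, ?_⟩
  rw [Nat.card_prod, card_eq_totient_of_hasEnoughRootsOfUnity,
    card_eq_totient_of_hasEnoughRootsOfUnity, card_eq_totient_of_hasEnoughRootsOfUnity,
    Nat.totient_mul hc]

/-- The product of a pair mod `m` and one mod `n`. -/
def joinPair (v : (DirichletCharacter ℂ m × DirichletCharacter ℂ m) ×
    (DirichletCharacter ℂ n × DirichletCharacter ℂ n)) :
    DirichletCharacter ℂ (m * n) × DirichletCharacter ℂ (m * n) :=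
  (joinChar m n (v.1.1, v.2.1), joinChar m n (v.1.2, v.2.2))

theorem joinPair_bijective (hc : m.Coprime n) :
    Function.Bijective (joinPair (m := m) (n := n)) := by
  constructor
  · intro x y e
    have e1 := Prod.ext_iff.mp ((joinChar_bijective hc).1 (congrArg Prod.fst e))
    have e2 := Prod.ext_iff.mp ((joinChar_bijective hc).1 (congrArg Prod.snd e))
    exact Prod.ext (Prod.ext e1.1 e2.1) (Prod.ext e1.2 e2.2)
  · rintro ⟨a, b⟩
    obtain ⟨x, hx⟩ := (joinChar_bijective hc).2 a
    obtain ⟨y, hy⟩ := (joinChar_bijective hc).2 b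
    exact ⟨((x.1, y.1), (x.2, y.2)), Prod.ext hx hy⟩

theorem valid_joinPair (hc : m.Coprime n) (S : Shape)
    (u : DirichletCharacter ℂ m × DirichletCharacter ℂ m)
    (v : DirichletCharacter ℂ n × DirichletCharacter ℂ n) :
    Valid S (joinPair (u, v)) ↔ Valid S u ∧ Valid S v := by
  simp only [Valid, joinPair, ← map_pow, map_eq_one_iff _ (joinChar_injective hc), Prod.pow_mk,
    Prod.mk_eq_one]
  tauto

theorem prodCond_joinPair (hc : m.Coprime n) (S : Shape)
    (u : DirichletCharacter ℂ m × DirichletCharacter ℂ m)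
    (v : DirichletCharacter ℂ n × DirichletCharacter ℂ n) :
    prodCond S (joinPair (u, v)) = prodCond S u * prodCond S v := by
  rw [prodCond, prodCond, prodCond, ← Finset.prod_mul_distrib]
  refine Finset.prod_congr rfl fun w _ => ?_
  rw [joinPair, ← map_pow, ← map_pow, ← map_mul, Prod.pow_mk, Prod.pow_mk, Prod.mk_mul_mk,
    conductor_joinChar hc]

omit [NeZero m] [NeZero n] in
theorem prodCond_coprime (hc : m.Coprime n) (S : Shape)
    (u : DirichletCharacter ℂ m × DirichletCharacter ℂ m) : (prodCond S u).Coprime n :=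
  Nat.Coprime.prod_left fun _ _ => hc.coprime_dvd_left (conductor_dvd_level _)

theorem tally_mul (hc : m.Coprime n) (S : Shape) :
    tally S (m * n) (m * n) = tally S m m * tally S n n := by
  unfold tally
  rw [← Nat.card_prod]
  refine (Nat.card_congr ?_).symm
  refine (Equiv.subtypeProdEquivProd).symm.trans
    ((Equiv.ofBijective _ (joinPair_bijective hc)).subtypeEquiv fun x => ?_)
  obtain ⟨u, v⟩ := x
  rw [Equiv.ofBijective_apply, valid_joinPair hc, prodCond_joinPair hc]
  refine ⟨fun h => ⟨⟨h.1.1, h.2.1⟩, by rw [h.1.2, h.2.2]⟩, fun h => ?_⟩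
  have e1 : prodCond S u = m := Nat.dvd_antisymm
    ((prodCond_coprime hc S u).dvd_of_dvd_mul_right (h.2 ▸ dvd_mul_right _ _))
    ((prodCond_coprime hc.symm S v).symm.dvd_of_dvd_mul_right (h.2.symm ▸ dvd_mul_right m n))
  refine ⟨⟨h.1.1, e1⟩, h.1.2, Nat.eq_of_mul_eq_mul_left (Nat.pos_of_ne_zero (NeZero.ne m)) ?_⟩
  have h3 := h.2
  rw [e1] at h3
  exact h3

end CRT

theorem tally_one (S : Shape) : tally S 1 1 = 1 := by
  haveI : Unique {v : DirichletCharacter ℂ 1 × DirichletCharacter ℂ 1 //
      Valid S v ∧ prodCond S v = 1} :=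
    { default := ⟨(1, 1), ⟨one_pow _, one_pow _⟩, Finset.prod_eq_one fun w _ => by
        simp [conductor_one]⟩
      uniq := fun v => Subtype.ext (Subsingleton.elim _ _) }
  exact Nat.card_unique

theorem cnt_isMultiplicative (S : Shape) : (cnt S).IsMultiplicative := by
  refine ArithmeticFunction.IsMultiplicative.iff_ne_zero.mpr ⟨?_, fun {m n} hm hn hc => ?_⟩
  · rw [cnt_apply S one_ne_zero, tally_one, Nat.cast_one]
  · haveI : NeZero m := ⟨hm⟩
    haveI : NeZero n := ⟨hn⟩
    rw [cnt_apply S (mul_ne_zero hm hn), cnt_apply S hm, cnt_apply S hn, tally_mul hc, Nat.cast_mul]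

/-- **Summing the counts.** -/
theorem card_prodCond_mem [NeZero N] (S : Shape) (s : Finset ℕ) (hs : ∀ d ∈ s, d ∣ N) :
    (Nat.card {v : DirichletCharacter ℂ N × DirichletCharacter ℂ N //
      Valid S v ∧ prodCond S v ∈ s} : ℝ) = ∑ d ∈ s, cnt S d := by
  haveI : Fintype (DirichletCharacter ℂ N) := Fintype.ofFinite _
  rw [Nat.card_eq_fintype_card, Fintype.card_subtype,
    Finset.card_eq_sum_card_fiberwise (f := prodCond S) (t := s)
      fun v hv => (Finset.mem_filter.mp hv).2.2, Nat.cast_sum]
  refine Finset.sum_congr rfl fun d hd => ?_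
  have hd0 : d ≠ 0 := ne_zero_of_dvd_ne_zero (NeZero.ne N) (hs d hd)
  rw [cnt_apply S hd0, ← tally_eq S (hs d hd), tally, Nat.card_eq_fintype_card,
    Fintype.card_subtype, Finset.filter_filter]
  refine congrArg Nat.cast (congrArg Finset.card (Finset.filter_congr fun v _ => ?_))
  exact ⟨fun h => ⟨h.1.1, h.2⟩, fun h => ⟨⟨h.1, h.2 ▸ hd⟩, h.2⟩⟩

end FA.AbelianQuartic
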